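import Fermat.Agent.S59.TRes.Defs4
import Fermat.Agent.S56.FL.H85_CCBase
import Fermat.Agent.S56.FL.H15_Comp

/-!
# S59, leaf TRES (helper49): the three small leaves `CYC`, `DISC`, `E1STAB`
-/

set_option autoImplicit false

open WeierstrassCurve WeierstrassCurve.Affine

namespace Fermat.Agent.S59.TRes.H49

open Fermat.Agent.S56.FL Fermat.Agent.S52.H5
open Fermat.Agent.S05 (ModelHyp InE1)

/-- **CYC**. -/
theorem stmt_CYC : Stmt_CYC := by
  intro p _
  have hp : p.Prime := Fact.out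
  obtain ⟨ζ, hζ1, hζp⟩ := H15.exists_zeta (p := p)
  have hζ : IsPrimitiveRoot ζ p := by
    rw [IsPrimitiveRoot.iff_orderOf]
    exact orderOf_eq_prime hζp hζ1
  refine ⟨(H85.omg hζ).ker, MonoidHom.normal_ker _, fun g => ?_, fun n hn ξ hξ => ?_⟩
  · rw [MonoidHom.mem_ker, map_pow]
    exact ZMod.units_pow_card_sub_one_eq_one p _
  · rw [H85.omg_spec' hζ n hξ, MonoidHom.mem_ker.1 hn, Units.val_one, ZMod.val_one'' hp.ne_one,
      pow_one]

/-- **DISC**. -/
theorem stmt_DISC : Stmt_DISC := by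
  intro L _ A W hyp _
  have e : W.Δ = 16 * W.a₄ ^ 2 * (W.a₂ ^ 2 - 4 * W.a₄) := by
    simp only [WeierstrassCurve.Δ, WeierstrassCurve.b₂, WeierstrassCurve.b₄, WeierstrassCurve.b₆,
      WeierstrassCurve.b₈, hyp.a₁, hyp.a₃, hyp.a₆]
    ring
  have h16 : A.valuation (16 : L) = 1 := by
    have : (16 : L) = 2 ^ 4 := by norm_num
    rw [this, map_pow, hyp.two, one_pow]
  rw [e, map_mul, map_mul, h16, one_mul, hyp.disc, mul_one, map_pow]

/-- **E1STAB**. -/
theorem stmt_E1STAB : Stmt_E1STAB := by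
  intro L _ _ A W _ hb σ s hs Q hQ
  rcases Q with _ | ⟨x, y, h⟩
  · have : s (Point.zero : W.Point) = 0 := map_zero s
    rw [this]
    trivial
  · obtain ⟨x', y', h', hsQ, hx', -⟩ := hs.map_some x y h
    rw [hsQ]
    show 1 < A.valuation x'
    have hσx : 1 < A.valuation (σ x) := by
      rw [hs.val_eq]; exact hQ
    have e : x' = σ x + (x' - σ x) := by ring
    rw [e, Valuation.map_add_eq_of_lt_left]
    · exact hσx
    · exact lt_of_le_of_lt hx' (hb.trans hσx)

end Fermat.Agent.S59.TRes.H49
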