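import Fermat.Agent.S59.Asm.Red
import Fermat.Agent.S56.FL.Local
import Fermat.Agent.S56.FL.Coh
import Fermat.Agent.S52.H5_Unip

/-!
# S59, leaf TRES (helper49): interfaces

`Asm.Stmt_TRES` : for a semistable `W` with `p ∤ v_p(Δ)`, the residual representation is not flat
at `p`.  Plan: `NOTES/plan/S59_TRES.md`.

* `Stmt_TRESloc` : the LOCAL statement.  `W` has multiplicative reduction at `p` (`p ∣ Δ`,
  `p ∤ c₄`), `p` odd, `p ∤ v_p(Δ)`.  Then there is NO finite Galois extension `L/ℚ_p` of bounded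
  ramification (`S56.FL.IsBddField`) such that `Gal(K̄/L)` acts trivially on `E[p](ℚ̄)`
  (through `localGaloisToGlobal`).
* `Stmt_TRESwire` : `Stmt_TRESloc → Asm.Stmt_TRES` (Fontaine's bound `S56.FL.H54.stmt_FL_A` +
  BRIDGE-RES `LL.H77.bridgeRes`).

No `sorry`; definitions only.
-/

set_option autoImplicit false

open WeierstrassCurve WeierstrassCurve.Affine

namespace Fermat.Agent.S59.TRes

open Fermat.Agent.S56.FL Fermat.Agent.S52.H5

/-- **TRES, local form.**  Multiplicative reduction at the odd prime `p` with `p ∤ v_p(Δ)`: the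
field of `E[p]` is not contained in a finite Galois extension of `ℚ_p` with bounded
ramification. -/
def Stmt_TRESloc : Prop :=
  ∀ (p : ℕ) [Fact p.Prime], p ≠ 2 → ∀ (W : WeierstrassCurve ℤ), W.Δ ≠ 0 →
    (p : ℤ) ∣ W.Δ → ¬ (p : ℤ) ∣ W.c₄ →
    ¬ (W.map (Int.castRingHom ℚ)).IsPeuRamifieeAt p p →
    ∀ (L : IntermediateField ℚ_[p] (PadicAlgCl p)) [FiniteDimensional ℚ_[p] L],
      Normal ℚ_[p] L → IsBddField p L →
      ¬ (∀ σ : Gp p, σ ∈ L.fixingSubgroup →
          ∀ P : (EQ W).Point, p • P = 0 → localGaloisToGlobal p σ • P = P)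

/-- The wiring: the local statement gives `Asm.Stmt_TRES`. -/
def Stmt_TRESwire : Prop :=
  Stmt_TRESloc → Fermat.Agent.S59.Asm.Stmt_TRES

end Fermat.Agent.S59.TRes
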