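/-
S59, leaf TRES, wiring TRES-W (helper8): `Stmt_TRESloc → Asm.Stmt_TRES`.

If `ρ.residual` were flat at `p`, Fontaine's bound (`S56.FL.H54.stmt_FL_A`) gives a finite Galois
extension `L/ℚ_p` with bounded ramification such that `Gal(K̄/L)` acts trivially on `ρ.residual`,
hence (BRIDGE-RES, `LL.H77.bridgeRes`) on `E[p](ℚ̄)`: this contradicts `Stmt_TRESloc`.
-/
import Fermat.Agent.S59.TRes.Defs
import Fermat.Agent.S56.FL.H54_FLA
import Fermat.Agent.S59.LL.H77_BridgeRes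
import Fermat.Agent.S59.Asm.H49_CardKer
import Fermat.Agent.S59.Asm.H8_RedSplit

set_option autoImplicit false

open Polynomial IsLocalRing WeierstrassCurve WeierstrassCurve.Affine

namespace Fermat.Agent.S59.TRes.H8

open Fermat.Agent.S59 Fermat.Agent.S59.Asm Fermat.Agent.S56.FL Fermat.Agent.S52.H5

/-- `¬ p ∣ v_p(Δ)` forces `p ∣ Δ`. -/
theorem dvd_Δ_of_not_peu (p : ℕ) [Fact p.Prime] (W : WeierstrassCurve ℤ)
    (h : ¬ (W.map (Int.castRingHom ℚ)).IsPeuRamifieeAt p p) : (p : ℤ) ∣ W.Δ := by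
  by_contra hndvd
  apply h
  show (p : ℤ) ∣ padicValRat p (W.map (Int.castRingHom ℚ)).Δ
  rw [WeierstrassCurve.map_Δ]
  have h1 : (Int.castRingHom ℚ) W.Δ = ((W.Δ : ℤ) : ℚ) := rfl
  rw [h1, padicValRat.of_int, padicValInt.eq_zero_of_not_dvd hndvd]
  simp

/-- **TRES-W**. -/
theorem stmt_TRESwire : Stmt_TRESwire := by
  intro hloc p hpF hp2 W hΔ hss hirr hpeu 𝒪 _ _ _ _ _ _ ρ hdet habs hfrob hflat
  have hp : p.Prime := hpF.out
  obtain ⟨hcard₁, hker⟩ := Fermat.Agent.S59.Asm.H49.stmt_CARDKER p W hΔ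
  have hchar : CharP (ResidueField 𝒪) p := by
    refine (CharP.charP_iff_prime_eq_zero hp).2 ?_
    have h := (residue_eq_zero_iff (p : 𝒪)).2 hdet.1
    rwa [map_natCast] at h
  have hpΔ : (p : ℤ) ∣ W.Δ := dvd_Δ_of_not_peu p W hpeu
  have hc4 : ¬ (p : ℤ) ∣ W.c₄ := hss p hp hpΔ
  -- the flat Galois module
  have h1 := Fermat.Agent.S59.Asm.H8.isFlatGaloisModule_of_isFlatAt ρ.residual p hp hflat
  have hkill : ∀ m : ρ.residual.V, p • m = 0 := by
    intro m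
    have h2 : ((p : ResidueField 𝒪)) • m = 0 := by
      rw [CharP.cast_eq_zero (ResidueField 𝒪) p, zero_smul]
    rwa [Nat.cast_smul_eq_nsmul] at h2
  obtain ⟨L, hfd, hN, hB, htriv⟩ := Fermat.Agent.S56.FL.H54.stmt_FL_A p hp2 ρ.residual.V
    (fun σ => ρ.residual.ρ σ) hkill h1
  refine hloc p hp2 W hΔ hpΔ hc4 hpeu L hN hB ?_
  intro σ hσ P hP
  have h2 : ρ.residual.ρ (localGaloisToGlobal p σ) = 1 :=
    LinearMap.ext fun m => htriv σ hσ m
  let j : ZMod p →+* ResidueField 𝒪 := ZMod.castHom (dvd_refl p) (ResidueField 𝒪)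
  have he := Fermat.Agent.S59.LL.H77.bridgeRes W hΔ p hcard₁ hker j ρ ∅
    (fun ℓ hℓ hℓp _ hgood A hA σ hσ => hfrob ℓ hℓ hℓp hgood A hA σ hσ) habs
  have h3 := Fermat.Agent.S59.Asm.eq_one_of_isEquiv_resid he (localGaloisToGlobal p σ) h2
  have h4 := Fermat.Agent.S59.LL.H77.eq_one_of_bcAlong_resid_eq_one j _
    (localGaloisToGlobal p σ) h3
  have hP' : P ∈ Submodule.torsionBy ℤ (EQ W).Point p := by
    rw [Submodule.mem_torsionBy_iff]
    rw [Nat.cast_smul_eq_nsmul]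
    exact hP
  have h5 := congrArg (fun F : Module.End (ZMod p) (Submodule.torsionBy ℤ (EQ W).Point p) =>
    ((F ⟨P, hP'⟩ : Submodule.torsionBy ℤ (EQ W).Point p) : (EQ W).Point)) h4
  exact h5

end Fermat.Agent.S59.TRes.H8
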