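import Fermat.Agent.S59.TRes.H49_Loc
import Fermat.Agent.S59.TRes.H49_Leaves3
import Fermat.Agent.S59.TRes.H8_Wire

/-!
# S59, leaf TRES (helper49): `Stmt_TRESloc` and `Asm.Stmt_TRES`, unconditional

* `stmt_TRESloc : Stmt_TRESloc` (contraction route, `NOTES/plan/S59_TRES.md` par. 2).
* `stmt_TRES : Asm.Stmt_TRES` through helper8's wire `H8.stmt_TRESwire`.
-/

set_option autoImplicit false

namespace Fermat.Agent.S59.TRes.H49

/-- **TRES, local form.** -/
theorem stmt_TRESloc : Stmt_TRESloc := tresloc_of stmt_CYC stmt_DISC stmt_E1STAB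

/-- **TRES.** -/
theorem stmt_TRES : Fermat.Agent.S59.Asm.Stmt_TRES :=
  Fermat.Agent.S59.TRes.H8.stmt_TRESwire stmt_TRESloc

end Fermat.Agent.S59.TRes.H49
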