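import Fermat.Agent.S59.TRes.Defs

/-!
# S59, leaf TRES (helper49): statements of the sub-leaves of `Stmt_TRESloc`

Plan: `NOTES/plan/S59_TRES.md` par. 2 (contraction route).  Model: the S05 model
`y² = x³ + a x² + b x` (`|a| = 1`, `|b| < 1`), `|x| := A.valuation x`.

* `Stmt_SMALL`  (E1): a point of order `p` with `|b| < |x| < 1` and `|x|^p = |b|^n`, `0 < n < p`.
* `Stmt_ADDEST` (E3): `|b| < |x₁| < 1 < |x₂|`  ⇒  `|x(P₁ + P₂) - x₁|² · |x₂| = |x₁|²`.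
* `Stmt_GRP`    (K1): the normal subgroup `N` (trivial on the line `⟨T⟩` and on the quotient) and
  the additive map `ψ` with `n P = P + ψ(n) T`.
* `Stmt_CORE`   (K2-K4): the field-theoretic contradiction.
* BIGROOT (E2) is `H49.stmt_BIGROOT` (`H49_BigRoot.lean`).

No `sorry`; definitions only.
-/

set_option autoImplicit false

open WeierstrassCurve WeierstrassCurve.Affine

namespace Fermat.Agent.S59.TRes

open Fermat.Agent.S56.FL
open Fermat.Agent.S05 (ModelHyp)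

/-- **SMALL** (E1): a point of order `p` in the annulus `|b| < |x| < 1`, with
`|x|^p = |b|^n`, `0 < n < p`.
(ROOT `Tate.T6.H97.stmt_ROOT` gives `|x| < 1`; the component map `S05.compMap` is additive with
values in `Γ/⟨|b|⟩`, `2 cls(b) = 0 ≠ cls(b)`.) -/
def Stmt_SMALL : Prop :=
  ∀ (L : Type) [Field L] [DecidableEq L] [IsAlgClosed L] [CharZero L] (A : ValuationSubring L)
    (p : ℕ), p.Prime → p ≠ 2 → A.valuation (p : L) < 1 →
  ∀ (W : Affine L), ModelHyp A W → A.valuation W.a₄ < 1 → W.Δ ≠ 0 →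
    ∃ (x y : L) (h : W.Nonsingular x y) (n : ℕ), p • Point.some x y h = 0 ∧
      A.valuation W.a₄ < A.valuation x ∧ A.valuation x < 1 ∧ 0 < n ∧ n < p ∧
      A.valuation x ^ p = A.valuation W.a₄ ^ n

/-- **ADDEST** (E3): adding a point of the kernel of reduction to a point of the annulus moves
the `x`-coordinate by exactly `|x₁| · |x₂|^(-1/2)`.
(Identity `(x₂-x₁)²(x₃-x₁) = -x₁³ + 3x₁²x₂ + 2a x₁x₂ + b(x₁+x₂) - 2y₁y₂`; the last term is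
strictly dominant: `|y₁| = |x₁|`, `|y₂|² = |x₂|³`, `|2| = 1`.) -/
def Stmt_ADDEST : Prop :=
  ∀ (L : Type) [Field L] [DecidableEq L] (A : ValuationSubring L) (W : Affine L),
    ModelHyp A W → A.valuation W.a₄ < 1 →
  ∀ (x₁ y₁ x₂ y₂ : L) (h₁ : W.Nonsingular x₁ y₁) (h₂ : W.Nonsingular x₂ y₂),
    A.valuation W.a₄ < A.valuation x₁ → A.valuation x₁ < 1 → 1 < A.valuation x₂ →
    ∃ (x₃ y₃ : L) (h₃ : W.Nonsingular x₃ y₃),
      Point.some x₁ y₁ h₁ + Point.some x₂ y₂ h₂ = Point.some x₃ y₃ h₃ ∧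
      A.valuation (x₃ - x₁) ^ 2 * A.valuation x₂ = A.valuation x₁ ^ 2

/-- **GRP** (K1): `X` an abelian group with an action of `G`, `T`, `P` independent elements of
order `p` with `g T ∈ ⟨T⟩`, `g P ∈ ⟨P, T⟩`.  Then `N = {g | g T = T, g P - P ∈ ⟨T⟩}` is a normal
subgroup containing all `(p-1)`-th powers, and `n P = P + ψ(n) T` on `N` with `ψ` additive. -/
def Stmt_GRP : Prop :=
  ∀ (p : ℕ) [Fact p.Prime] (G : Type) [Group G] (X : Type) [AddCommGroup X]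
    (act : G →* AddMonoid.End X) (T P : X), p • T = 0 → p • P = 0 →
    (∀ a c : ℤ, a • P + c • T = 0 → (p : ℤ) ∣ a ∧ (p : ℤ) ∣ c) →
    (∀ g, ∃ a : ℤ, act g T = a • T) →
    (∀ g, ∃ a c : ℤ, act g P = a • P + c • T) →
    ∃ (N : Subgroup G) (ψ : G → ZMod p), N.Normal ∧ (∀ g : G, g ^ (p - 1) ∈ N) ∧
      (∀ n ∈ N, ∀ n' ∈ N, ψ (n * n') = ψ n + ψ n') ∧
      (∀ n ∈ N, act n T = T) ∧
      (∀ n ∈ N, act n P = P + (ψ n).val • T) ∧
      (∀ n ∈ N, act n P = P → ψ n = 0)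

/-- **CORE** (K2-K4): there is no bounded finite Galois extension `L/ℚ_p` containing a family
`γ : ℤ/p → L` of distinct elements which a normal subgroup `N ⊇ Gᵖ⁻¹` (fixing `μ_p`) permutes by
translation through `ψ`, with `‖γ 0‖^(p d) = p^(-M)`, `p ∤ M`, and
`‖γ 1 - γ 0‖² R ≤ ‖γ 0‖²`, `p ≤ R^((p-1)/2)`.
(Kummer witness `α` with `‖α‖ = 1` (`H15.exists_wit_bdd`), Lagrange interpolation
`α = ∑ c_k (γ 0)^k` with `c_k ∈ K = L(μ_p)^N` tame, orthogonality, contraction.) -/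
def Stmt_CORE : Prop :=
  ∀ (p : ℕ) [Fact p.Prime], p ≠ 2 →
  ∀ (L : IntermediateField ℚ_[p] (PadicAlgCl p)) [FiniteDimensional ℚ_[p] L],
    Normal ℚ_[p] L → IsBddField p L →
  ∀ (N : Subgroup (Gp p)), N.Normal → (∀ g : Gp p, g ^ (p - 1) ∈ N) →
    (∀ n ∈ N, ∀ ζ : PadicAlgCl p, ζ ^ p = 1 → n ζ = ζ) →
  ∀ (ψ : Gp p → ZMod p), (∀ n ∈ N, ∀ n' ∈ N, ψ (n * n') = ψ n + ψ n') →
    (∀ n ∈ N, n ∈ L.fixingSubgroup → ψ n = 0) →
  ∀ (γ : ZMod p → PadicAlgCl p), Function.Injective γ → (∀ i, γ i ∈ L) →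
    (∀ n ∈ N, ∀ i, n (γ i) = γ (i + ψ n)) →
  ∀ (M d : ℕ), 0 < d → ¬ p ∣ M → ‖γ 0‖ ^ (p * d) = ((p : ℝ)⁻¹) ^ M →
  ∀ (R : ℝ), 1 < R → (p : ℝ) ≤ R ^ ((p - 1) / 2) → ‖γ 1 - γ 0‖ ^ 2 * R ≤ ‖γ 0‖ ^ 2 → False

end Fermat.Agent.S59.TRes
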