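import Fermat.Agent.S59.TRes.Defs2

/-!
# S59, leaf TRES (helper49): two more sub-leaves of `Stmt_TRESloc`

* `Stmt_TORS` (pure group theory): `#X[p] = p²`, `S` a subgroup, `T ∈ S`, `P ∉ S` of order `p`:
  `P`, `T` are independent and generate `X[p]`, and `X[p] ∩ S = ⟨T⟩`.
* `Stmt_X0` (valuations): `e` a root of `ψ₂²` at the node (`|trB4 e| < 1`, `|c₄| = 1`, `|2| = 1`),
  `S` a set of valuation preserving endomorphisms fixing the coefficients, closed under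
  composition: there is `x₀` fixed by `S` with `|x₀ - e| ≤ |trB4 e|`.
  (Every `σ ∈ S` has `σ e = e` or `σ e = e + δ` with `δ` THE nonzero root of
  `4X² + trB2·X + 2·trB4` of absolute value `< 1`: `S05`-style, see
  `S52.H5.val_shift_root_odd_of_val`; `x₀ := e + δ/2`, or `e` if all `σ` fix `e`.)

No `sorry`; definitions only.
-/

set_option autoImplicit false

open WeierstrassCurve WeierstrassCurve.Affine

namespace Fermat.Agent.S59.TRes

open Fermat.Agent.S52.H5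

/-- **TORS**: the structure of `X[p]` (`#X[p] = p²`) relative to a subgroup `S` containing a
nonzero `T ∈ X[p]` but not `P ∈ X[p]`. -/
def Stmt_TORS : Prop :=
  ∀ (p : ℕ) [Fact p.Prime] (X : Type) [AddCommGroup X],
    Nat.card (Submodule.torsionBy ℤ X (p : ℤ)) = p ^ 2 →
  ∀ (S : AddSubgroup X) (P T : X), p • P = 0 → p • T = 0 → T ≠ 0 → T ∈ S → P ∉ S →
    (∀ a c : ℤ, a • P + c • T = 0 → (p : ℤ) ∣ a ∧ (p : ℤ) ∣ c) ∧
    (∀ Q : X, p • Q = 0 → ∃ a c : ℤ, Q = a • P + c • T) ∧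
    (∀ Q : X, p • Q = 0 → Q ∈ S → ∃ c : ℤ, Q = c • T)

/-- **X0**: a point near the node fixed by all valuation preserving endomorphisms fixing the
coefficients. -/
def Stmt_X0 : Prop :=
  ∀ (L : Type) [Field L] (A : ValuationSubring L) (E : Affine L),
    A.valuation (2 : L) = 1 → A.valuation E.c₄ = 1 →
  ∀ e : L, psi2sq E e = 0 → A.valuation (trB4 E e) < 1 →
  ∀ (S : Set (L →+* L)), (∀ σ ∈ S, ∀ τ ∈ S, σ.comp τ ∈ S) →
    (∀ σ ∈ S, (∀ x, A.valuation (σ x) = A.valuation x) ∧ σ E.a₁ = E.a₁ ∧ σ E.a₂ = E.a₂ ∧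
      σ E.a₃ = E.a₃ ∧ σ E.a₄ = E.a₄ ∧ σ E.a₆ = E.a₆) →
    ∃ x₀ : L, (∀ σ ∈ S, σ x₀ = x₀) ∧ A.valuation (x₀ - e) ≤ A.valuation (trB4 E e)

end Fermat.Agent.S59.TRes
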