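import Fermat.Agent.S59.TRes.Defs3
import Fermat.Agent.S52.H5_UnipDecomp

/-!
# S59, leaf TRES (helper49): three small leaves of the assembly

* `Stmt_CYC`    : the kernel of the mod `p` cyclotomic character of `Gal(K̄/ℚ_p)` is a normal
  subgroup containing all `(p-1)`-th powers (`S56.FL.H85.omg`, `omg_spec'`).
* `Stmt_DISC`   : on the S05 model with `|b| < 1`: `|Δ| = |b|²`
  (`Δ = 16 b² (a² - 4b)`, `|2| = 1`, `|a² - 4b| = 1`).
* `Stmt_E1STAB` : a shifted valuation preserving map (`S52.H5.ShiftedVal`) preserves the kernel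
  of reduction `E₁` (`|x| > 1`), when `|b| < 1`.

No `sorry`; definitions only.
-/

set_option autoImplicit false

open WeierstrassCurve WeierstrassCurve.Affine

namespace Fermat.Agent.S59.TRes

open Fermat.Agent.S56.FL Fermat.Agent.S52.H5
open Fermat.Agent.S05 (ModelHyp InE1)

/-- **CYC**: the kernel of the mod `p` cyclotomic character. -/
def Stmt_CYC : Prop :=
  ∀ (p : ℕ) [Fact p.Prime], ∃ Nc : Subgroup (Gp p), Nc.Normal ∧ (∀ g : Gp p, g ^ (p - 1) ∈ Nc) ∧
    ∀ n ∈ Nc, ∀ ζ : PadicAlgCl p, ζ ^ p = 1 → n ζ = ζ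

/-- **DISC**: `|Δ| = |b|²` on the model. -/
def Stmt_DISC : Prop :=
  ∀ (L : Type) [Field L] (A : ValuationSubring L) (W : Affine L),
    ModelHyp A W → A.valuation W.a₄ < 1 → A.valuation W.Δ = A.valuation W.a₄ ^ 2

/-- **E1STAB**: shifted valuation preserving maps preserve `E₁`. -/
def Stmt_E1STAB : Prop :=
  ∀ (L : Type) [Field L] [DecidableEq L] (A : ValuationSubring L) (W : Affine L),
    ModelHyp A W → A.valuation W.a₄ < 1 →
  ∀ (σ : L →+* L) (s : W.Point →+ W.Point), ShiftedVal A W σ s →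
    ∀ Q : W.Point, InE1 A Q → InE1 A (s Q)

end Fermat.Agent.S59.TRes
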