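/-
S59 / TRES (helper49's plan), leaf X0 (helper26): `stmt_X0 : Stmt_X0`.

`e` a root of `ψ₂²` at the node, `S` a set of valuation preserving endomorphisms fixing the
coefficients, closed under composition.  Every `σ ∈ S` moves `e` by `0` or by THE small root `δ`
of `4X² + trB2·X + 2·trB4` (`S52.H5.val_shift_root_odd_of_val` + uniqueness of the small root);
`x₀ := e + δ/2` (or `e` if all `σ` fix `e`) is fixed by `S`.
-/
import Fermat.Agent.S59.TRes.Defs3
import Fermat.Agent.S52.H5_UnipDecomp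

set_option autoImplicit false

open WeierstrassCurve WeierstrassCurve.Affine

namespace Fermat.Agent.S59.TRes.H26

open Fermat.Agent.S52.H5

section

variable {L : Type} [Field L] {A : ValuationSubring L}

/-- `|trB2| = 1` at a root at the node. -/
lemma val_trB2_eq_one {E : Affine L} (hc₄ : A.valuation E.c₄ = 1) {e : L}
    (hb : A.valuation (trB4 E e) < 1) : A.valuation (trB2 E e) = 1 := by
  have h := congrArg A.valuation (c₄_eq_tr E e)
  rw [hc₄] at h
  have hsm : A.valuation (24 * trB4 E e) < 1 := by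
    rw [map_mul]
    calc A.valuation (24 : L) * A.valuation (trB4 E e) ≤ 1 * A.valuation (trB4 E e) := by
          gcongr; exact val_ofNat_le 24
      _ = A.valuation (trB4 E e) := one_mul _
      _ < 1 := hb
  have e1 : trB2 E e ^ 2 = (trB2 E e ^ 2 - 24 * trB4 E e) + 24 * trB4 E e := by ring
  have : A.valuation (trB2 E e ^ 2) = 1 := by
    rw [e1, Valuation.map_add_eq_of_lt_left _ (by rw [← h]; exact hsm), ← h]
  rw [map_pow] at this
  exact val_eq_one_of_sq_eq_one this

/-- The small root of `4X² + trB2·X + 2·trB4` is unique. -/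
lemma small_root_unique {E : Affine L} (h2 : A.valuation (2 : L) = 1)
    (hc₄ : A.valuation E.c₄ = 1) {e : L} (hb : A.valuation (trB4 E e) < 1) {x y : L}
    (hx : 4 * x ^ 2 + trB2 E e * x + 2 * trB4 E e = 0)
    (hy : 4 * y ^ 2 + trB2 E e * y + 2 * trB4 E e = 0)
    (hxv : A.valuation x < 1) (hyv : A.valuation y < 1) : x = y := by
  have h4 := val_four_of_two h2
  have hB2 := val_trB2_eq_one hc₄ hb
  have hprod : (x - y) * (4 * (x + y) + trB2 E e) = 0 := by
    linear_combination hx - hy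
  rcases mul_eq_zero.1 hprod with h | h
  · exact sub_eq_zero.1 h
  · exfalso
    have hsm : A.valuation (4 * (x + y)) < 1 := by
      rw [map_mul, h4, one_mul]
      exact Valuation.map_add_lt _ hxv hyv
    have h1 : A.valuation (4 * (x + y) + trB2 E e) = 1 := by
      rw [Valuation.map_add_eq_of_lt_right _ (by rw [hB2]; exact hsm), hB2]
    rw [h, map_zero] at h1
    exact zero_ne_one h1

/-- A valuation preserving `σ` fixing the coefficients moves `e` by `0` or by a small root of the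
quadratic. -/
lemma shift_root_cases {E : Affine L} (h2 : A.valuation (2 : L) = 1)
    (hc₄ : A.valuation E.c₄ = 1) {e : L} (he : psi2sq E e = 0)
    (hb : A.valuation (trB4 E e) < 1) (σ : L →+* L)
    (hσv : ∀ x, A.valuation (σ x) = A.valuation x)
    (h₁ : σ E.a₁ = E.a₁) (h₂ : σ E.a₂ = E.a₂) (h₃ : σ E.a₃ = E.a₃) (h₄ : σ E.a₄ = E.a₄)
    (h₆ : σ E.a₆ = E.a₆) :
    σ e = e ∨ (4 * (σ e - e) ^ 2 + trB2 E e * (σ e - e) + 2 * trB4 E e = 0 ∧
      A.valuation (σ e - e) < 1) := by
  have hv := val_shift_root_odd_of_val h2 hc₄ he hb σ hσv h₁ h₂ h₃ h₄ h₆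
  have hσe : e + (σ e - e) = σ e := by ring
  have hroot : psi2sq E (e + (σ e - e)) = 0 := by
    rw [hσe, psi2sq_map E σ h₁ h₂ h₃ h₄ h₆, he, map_zero]
  rw [psi2sq_add, he, zero_add] at hroot
  rcases mul_eq_zero.1 hroot with h0 | h0
  · exact Or.inl (sub_eq_zero.1 h0)
  · exact Or.inr ⟨h0, lt_of_le_of_lt hv hb⟩

end

/-- **X0**. -/
theorem stmt_X0 : Stmt_X0 := by
  intro L _ A E h2 hc₄ e he hb S hcomp hS
  by_cases hall : ∀ σ ∈ S, σ e = e
  · exact ⟨e, hall, by rw [sub_self, map_zero]; exact zero_le⟩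
  · have hex : ∃ σ₀ ∈ S, σ₀ e ≠ e := by
      by_contra hcon
      exact hall fun σ hσ => by
        by_contra h
        exact hcon ⟨σ, hσ, h⟩
    obtain ⟨σ₀, hσ₀, hne⟩ := hex
    set δ := σ₀ e - e with hδ
    have hδ0 : δ ≠ 0 := sub_ne_zero.2 hne
    obtain ⟨hv₀, h₁, h₂, h₃, h₄, h₆⟩ := hS σ₀ hσ₀
    have hδroot : 4 * δ ^ 2 + trB2 E e * δ + 2 * trB4 E e = 0 ∧ A.valuation δ < 1 := by
      rcases shift_root_cases h2 hc₄ he hb σ₀ hv₀ h₁ h₂ h₃ h₄ h₆ with h | h
      · exact absurd h hne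
      · exact h
    have hδv : A.valuation δ ≤ A.valuation (trB4 E e) :=
      val_shift_root_odd_of_val h2 hc₄ he hb σ₀ hv₀ h₁ h₂ h₃ h₄ h₆
    -- every `σ ∈ S` moves `e` by `0` or `δ`
    have hcases : ∀ σ ∈ S, σ e = e ∨ σ e = e + δ := by
      intro σ hσ
      obtain ⟨hv, g₁, g₂, g₃, g₄, g₆⟩ := hS σ hσ
      rcases shift_root_cases h2 hc₄ he hb σ hv g₁ g₂ g₃ g₄ g₆ with h | h
      · exact Or.inl h
      · right
        have := small_root_unique h2 hc₄ hb h.1 hδroot.1 h.2 hδroot.2
        rw [← this]; ring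
    have h20 : (2 : L) ≠ 0 := by
      intro h
      rw [h, map_zero] at h2
      exact zero_ne_one h2
    refine ⟨e + δ / 2, ?_, ?_⟩
    · intro σ hσ
      have hσσ₀ := hcases (σ.comp σ₀) (hcomp σ hσ σ₀ hσ₀)
      have hσe := hcases σ hσ
      have hinj : σ (σ₀ e) ≠ σ e := fun h => hne (σ.injective h)
      have hσ₀e : σ₀ e = e + δ := by rw [hδ]; ring
      have hσδ : σ δ = σ (σ₀ e) - σ e := by rw [hδ, map_sub]
      rw [RingHom.comp_apply] at hσσ₀
      rw [map_add, map_div₀, map_ofNat, hσδ]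
      rcases hσe with h | h <;> rcases hσσ₀ with h' | h'
      · exact absurd (h'.trans h.symm) hinj
      · rw [h, h']; ring
      · rw [h, h']; field_simp; ring
      · exact absurd (h'.trans h.symm) hinj
    · have : e + δ / 2 - e = δ / 2 := by ring
      rw [this, map_div₀, h2, div_one]
      exact hδv

end Fermat.Agent.S59.TRes.H26
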