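import Fermat.Agent.Tate.T6.H97_Root

/-!
# S59, leaf TRES (helper49): BIGROOT (E2 of `NOTES/plan/S59_TRES.md`)

On the S05 model `y² = x³ + a x² + b x` (`|a| = 1`, `|b| < 1`) over an algebraically closed valued
field of characteristic `0` and odd residue characteristic `p`, some point `T₀` of order `p`
satisfies `1 ≤ |p| · |x(T₀)| ^ ((p - 1) / 2)`.

Route (as ROOT, helper97): the `p`-th division polynomial `g` has leading coefficient `p`, degree
`(p² - 1)/2`, and its coefficient of `X ^ ((p² - p)/2)` is a unit (T6-DP).  If all roots have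
`|ξ| ≤ R` then `|g_i| R^i ≤ |p| R^deg`.
-/

set_option autoImplicit false

namespace Fermat.Agent.S59.TRes.H49

open WeierstrassCurve WeierstrassCurve.Affine Polynomial IsLocalRing
open Fermat.Agent.S05 (ModelHyp)
open Fermat.Agent.Lib.TorsionGen
open Fermat.Agent.Lib.EllFinite
open Fermat.Agent.Tate.T6

section valpoly

variable {L : Type*} [Field L] (A : ValuationSubring L)

/-- A product of linear factors `X - ξ` with `|ξ| ≤ R`: `|c_i| R^i ≤ R^(number of factors)`. -/
lemma coeff_prod_mul_pow_le (s : Multiset L) (R : A.ValueGroup)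
    (hs : ∀ ξ ∈ s, A.valuation ξ ≤ R) (i : ℕ) :
    A.valuation ((s.map (fun ξ => X - C ξ)).prod.coeff i) * R ^ i ≤ R ^ (Multiset.card s) := by
  induction s using Multiset.induction_on generalizing i with
  | empty =>
    rw [Multiset.map_zero, Multiset.prod_zero, Multiset.card_zero, pow_zero]
    by_cases hi : i = 0
    · rw [hi, coeff_one_zero, map_one, pow_zero, one_mul]
    · rw [coeff_one, if_neg hi, map_zero, zero_mul]
      exact zero_le
  | cons ξ t ih =>
    rw [Multiset.map_cons, Multiset.prod_cons, Multiset.card_cons]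
    have hξ : A.valuation ξ ≤ R := hs ξ (Multiset.mem_cons_self ξ t)
    have iht : ∀ j, A.valuation ((t.map (fun ξ => X - C ξ)).prod.coeff j) * R ^ j ≤
        R ^ (Multiset.card t) :=
      fun j => ih (fun η hη => hs η (Multiset.mem_cons_of_mem hη)) j
    set P := (t.map (fun ξ => X - C ξ)).prod with hP
    cases i with
    | zero =>
      have h0 : ((X - C ξ) * P).coeff 0 = -ξ * P.coeff 0 := by
        rw [mul_coeff_zero, coeff_sub, coeff_X_zero, coeff_C_zero, zero_sub]
      rw [h0, map_mul, Valuation.map_neg, pow_zero, mul_one, pow_succ, mul_comm]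
      have := iht 0
      rw [pow_zero, mul_one] at this
      exact mul_le_mul' this hξ
    | succ j =>
      have hj : ((X - C ξ) * P).coeff (j + 1) = P.coeff j - ξ * P.coeff (j + 1) := by
        rw [sub_mul, coeff_sub, coeff_X_mul, coeff_C_mul]
      rw [hj]
      have h1 : A.valuation (P.coeff j) * R ^ (j + 1) ≤ R ^ (Multiset.card t + 1) := by
        rw [pow_succ, ← mul_assoc, pow_succ]
        exact mul_le_mul' (iht j) le_rfl
      have h2 : A.valuation (ξ * P.coeff (j + 1)) * R ^ (j + 1) ≤ R ^ (Multiset.card t + 1) := by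
        rw [map_mul, mul_assoc, pow_succ (n := Multiset.card t), mul_comm (R ^ Multiset.card t) R]
        exact mul_le_mul' hξ (iht (j + 1))
      rcases le_total (A.valuation (P.coeff j)) (A.valuation (ξ * P.coeff (j + 1))) with hle | hle
      · refine le_trans (mul_le_mul' ((Valuation.map_sub _ _ _).trans (max_le hle le_rfl)) le_rfl) h2
      · refine le_trans (mul_le_mul' ((Valuation.map_sub _ _ _).trans (max_le le_rfl hle)) le_rfl) h1

/-- A split polynomial all of whose roots have `|ξ| ≤ R`: `|g_i| R^i ≤ |lead| R^deg`. -/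
lemma coeff_mul_pow_le_of_roots [IsAlgClosed L] (g : L[X]) (R : A.ValueGroup)
    (hs : ∀ ξ ∈ g.roots, A.valuation ξ ≤ R) (i : ℕ) :
    A.valuation (g.coeff i) * R ^ i ≤ A.valuation g.leadingCoeff * R ^ g.natDegree := by
  have hprod := (IsAlgClosed.splits g).eq_prod_roots
  have hcard : Multiset.card g.roots = g.natDegree :=
    (IsAlgClosed.splits g).natDegree_eq_card_roots.symm
  have key := coeff_prod_mul_pow_le A g.roots R hs i
  have e : g.coeff i =
      g.leadingCoeff * ((g.roots.map (fun ξ => X - C ξ)).prod).coeff i := by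
    conv_lhs => rw [hprod]
    rw [coeff_C_mul]
  rw [e, map_mul, mul_assoc, ← hcard]
  exact mul_le_mul' le_rfl key

end valpoly

/-- **BIGROOT**: a point of order `p` deep in the kernel of reduction. -/
theorem stmt_BIGROOT (L : Type) [Field L] [DecidableEq L] [IsAlgClosed L] [CharZero L]
    (A : ValuationSubring L) (p : ℕ) (hp : p.Prime) (hp2 : p ≠ 2)
    (hpv : A.valuation (p : L) < 1) (W : Affine L) (hW : ModelHyp A W)
    (hb : A.valuation W.a₄ < 1) (hΔ : W.Δ ≠ 0) :
    ∃ (x y : L) (h : W.Nonsingular x y), p • Point.some x y h = 0 ∧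
      1 ≤ A.valuation (p : L) * A.valuation x ^ ((p - 1) / 2) := by
  classical
  have hfact : Fact p.Prime := ⟨hp⟩
  have hodd : ¬ Even p := fun h => hp2 ((Nat.Prime.even_iff hp).1 h)
  -- `|a| = 1`
  have h4 : A.valuation (4 : L) ≤ 1 := by
    have : (4 : L) = 2 * 2 := by norm_num
    rw [this, map_mul, hW.two, one_mul]
  have h4b : A.valuation (4 * W.a₄) < 1 := by
    rw [map_mul]
    calc A.valuation (4 : L) * A.valuation W.a₄ ≤ 1 * A.valuation W.a₄ := mul_le_mul' h4 le_rfl
      _ = A.valuation W.a₄ := one_mul _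
      _ < 1 := hb
  have hasq : A.valuation (W.a₂ ^ 2) = 1 := by
    have e : W.a₂ ^ 2 = (W.a₂ ^ 2 - 4 * W.a₄) + 4 * W.a₄ := by ring
    rw [e, Valuation.map_add_eq_of_lt_left _ (by rw [hW.disc]; exact h4b), hW.disc]
  have hav : A.valuation W.a₂ = 1 := by
    refine le_antisymm hW.a_le ?_
    have h1 : A.valuation (W.a₂ ^ 2) ≤ A.valuation W.a₂ := by
      rw [pow_two, map_mul]
      calc A.valuation W.a₂ * A.valuation W.a₂ ≤ 1 * A.valuation W.a₂ :=
            mul_le_mul' hW.a_le le_rfl
        _ = A.valuation W.a₂ := one_mul _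
    rw [hasq] at h1
    exact h1
  -- the model over `A`
  let aA : A := ⟨W.a₂, (A.valuation_le_one_iff _).1 hW.a_le⟩
  let bA : A := ⟨W.a₄, (A.valuation_le_one_iff _).1 hW.b_le⟩
  let WA : WeierstrassCurve A := ⟨0, aA, 0, bA, 0⟩
  have hWA : WA.map (algebraMap A L) = W := by
    ext
    · show algebraMap A L 0 = W.a₁
      rw [map_zero, hW.a₁]
    · rfl
    · show algebraMap A L 0 = W.a₃
      rw [map_zero, hW.a₃]
    · rfl
    · show algebraMap A L 0 = W.a₆
      rw [map_zero, hW.a₆]
  have hres_b : residue A bA = 0 := (H4.res_eq_zero_iff bA).2 hb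
  have hres_a : residue A aA ≠ 0 := (H4.res_ne_zero_iff aA).2 hav
  have hWk : WA.map (residue A) = nodal (residue A aA) := by
    ext
    · show residue A 0 = 0
      rw [map_zero]
    · rfl
    · show residue A 0 = 0
      rw [map_zero]
    · exact hres_b
    · show residue A 0 = 0
      rw [map_zero]
  have hp0 : ((p : ℕ) : ResidueField A) = 0 := by
    have h1 : residue A ((p : ℕ) : A) = 0 := by
      apply (H4.res_eq_zero_iff _).2
      simpa using hpv
    simpa using h1
  have hchar : CharP (ResidueField A) p := (CharP.charP_iff_prime_eq_zero hp).2 hp0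
  obtain ⟨c, hc, hDP⟩ := H97.stmt_DP (ResidueField A) p hp2 (residue A aA) hres_a
  set d₀ := (p ^ 2 - p) / 2 with hd₀
  set g₀ := WA.preΨ' p with hg₀
  have hg₀k : g₀.map (residue A) = C c * X ^ d₀ := by
    rw [hg₀, ← map_preΨ', hWk, hDP]
  have hgL : g₀.map (algebraMap A L) = W.preΨ' p := by
    rw [hg₀, ← map_preΨ', hWA]
  have hcoeff_d : A.valuation ((W.preΨ' p).coeff d₀) = 1 := by
    rw [← hgL, coeff_map]
    apply (H4.res_ne_zero_iff _).1
    rw [← coeff_map, hg₀k, coeff_C_mul, coeff_X_pow, if_pos rfl, mul_one]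
    exact hc
  -- degree and leading coefficient
  have hpL : ((p : ℕ) : L) ≠ 0 := by exact_mod_cast hp.ne_zero
  have hdeg : (W.preΨ' p).natDegree = (p ^ 2 - 1) / 2 := by
    rw [W.natDegree_preΨ' hpL, if_neg hodd]
  have hlead : (W.preΨ' p).leadingCoeff = (p : L) := by
    rw [W.leadingCoeff_preΨ' hpL, if_neg hodd]
  have h3 : 3 ≤ p := by
    have := hp.two_le
    omega
  have hNd : (p ^ 2 - 1) / 2 = d₀ + (p - 1) / 2 := by
    obtain ⟨m, hm⟩ := Nat.not_even_iff_odd.1 hodd
    have e1 : p ^ 2 - 1 = 2 * (2 * m ^ 2 + 2 * m) := by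
      rw [hm]
      have : (2 * m + 1) ^ 2 = 2 * (2 * m ^ 2 + 2 * m) + 1 := by ring
      omega
    have e2 : p ^ 2 - p = 2 * (2 * m ^ 2 + m) := by
      rw [hm]
      have : (2 * m + 1) ^ 2 = 2 * (2 * m ^ 2 + m) + (2 * m + 1) := by ring
      omega
    have e3 : p - 1 = 2 * m := by omega
    rw [hd₀, e1, e2, e3, Nat.mul_div_cancel_left _ (by norm_num : 0 < 2),
      Nat.mul_div_cancel_left _ (by norm_num : 0 < 2),
      Nat.mul_div_cancel_left _ (by norm_num : 0 < 2)]
    ring
  -- the roots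
  have hne : W.preΨ' p ≠ 0 := by
    intro h0
    rw [h0, coeff_zero, map_zero] at hcoeff_d
    exact zero_ne_one hcoeff_d
  have hroots : (W.preΨ' p).roots ≠ 0 := by
    intro h0
    have hcard := (IsAlgClosed.splits (W.preΨ' p)).natDegree_eq_card_roots
    rw [h0, Multiset.card_zero, hdeg, hNd] at hcard
    have : 1 ≤ (p - 1) / 2 := by omega
    omega
  -- a root of maximal absolute value
  obtain ⟨ξ, hξ, hmax⟩ : ∃ ξ ∈ (W.preΨ' p).roots, ∀ η ∈ (W.preΨ' p).roots,
      A.valuation η ≤ A.valuation ξ := by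
    obtain ⟨ξ, hξ, hmax⟩ := Finset.exists_max_image (W.preΨ' p).roots.toFinset
      (fun η => A.valuation η) (by
        obtain ⟨η, hη⟩ := Multiset.exists_mem_of_ne_zero hroots
        exact ⟨η, Multiset.mem_toFinset.2 hη⟩)
    exact ⟨ξ, Multiset.mem_toFinset.1 hξ, fun η hη => hmax η (Multiset.mem_toFinset.2 hη)⟩
  have key := coeff_mul_pow_le_of_roots A (W.preΨ' p) (A.valuation ξ) hmax d₀
  rw [hcoeff_d, one_mul, hlead, hdeg, hNd, pow_add, ← mul_assoc, mul_comm _ (A.valuation ξ ^ d₀),
    mul_assoc] at key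
  -- `ξ ≠ 0`
  have hξ0 : ξ ≠ 0 := by
    rintro rfl
    have hR0 : (0 : A.ValueGroup) < A.valuation (p : L) :=
      zero_lt_iff.2 (by simpa using hpL)
    have hall : ∀ η ∈ (W.preΨ' p).roots, A.valuation η ≤ A.valuation (p : L) := by
      intro η hη
      have := hmax η hη
      rw [map_zero] at this
      exact this.trans hR0.le
    have k2 := coeff_mul_pow_le_of_roots A (W.preΨ' p) (A.valuation (p : L)) hall d₀
    rw [hcoeff_d, one_mul, hlead, hdeg, hNd, pow_add, ← mul_assoc,
      mul_comm _ (A.valuation (p : L) ^ d₀), mul_assoc] at k2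
    have hR0d : (0 : A.ValueGroup) < A.valuation (p : L) ^ d₀ := pow_pos hR0 _
    have k3 : (1 : A.ValueGroup) ≤ A.valuation (p : L) * A.valuation (p : L) ^ ((p - 1) / 2) := by
      have : A.valuation (p : L) ^ d₀ * 1 ≤ A.valuation (p : L) ^ d₀ *
          (A.valuation (p : L) * A.valuation (p : L) ^ ((p - 1) / 2)) := by
        rw [mul_one]; exact k2
      exact (mul_le_mul_iff_right₀ hR0d).1 this
    have k4 : A.valuation (p : L) * A.valuation (p : L) ^ ((p - 1) / 2) < 1 := by
      rw [← pow_succ']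
      exact pow_lt_one₀ zero_le hpv (Nat.succ_ne_zero _)
    exact absurd k3 (not_le.2 k4)
  have hvξ : (0 : A.ValueGroup) < A.valuation ξ ^ d₀ :=
    pow_pos (zero_lt_iff.2 (by simpa using hξ0)) _
  have key' : (1 : A.ValueGroup) ≤ A.valuation (p : L) * A.valuation ξ ^ ((p - 1) / 2) := by
    have : A.valuation ξ ^ d₀ * 1 ≤
        A.valuation ξ ^ d₀ * (A.valuation (p : L) * A.valuation ξ ^ ((p - 1) / 2)) := by
      rw [mul_one]; exact key
    exact (mul_le_mul_iff_right₀ hvξ).1 this
  have hroot : (W.preΨ' p).eval ξ = 0 := (mem_roots'.1 hξ).2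
  obtain ⟨y, hy⟩ := IsAlgClosed.exists_pow_nat_eq (ξ ^ 3 + W.a₂ * ξ ^ 2 + W.a₄ * ξ) (n := 2)
    (by norm_num)
  have heq : W.Equation ξ y :=
    (Fermat.Agent.S05.legendre_equation_iff hW.a₁ hW.a₃ hW.a₆ ξ y).2 hy
  have hns : W.Nonsingular ξ y := (equation_iff_nonsingular_of_Δ_ne_zero hΔ).1 heq
  exact ⟨ξ, y, hns, (nsmul_eq_zero_iff_eval_preΨ' hns hodd).2 hroot, key'⟩

end Fermat.Agent.S59.TRes.H49
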