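import Mathlib

/-!
# S59, leaf TRES (helper49): the contraction argument (abstract part)

`C` a field with an ultrametric norm.

* `norm_le_norm_sum_of_distinct` : finitely many elements with pairwise distinct norms (of the
  nonzero ones): every term is bounded by the norm of the sum.
* `norm_map_pow_sub_pow_le` : `‖σ g - g‖ ≤ ρ ‖g‖` gives `‖σ (g^k) - g^k‖ ≤ ρ ‖g‖^k`.
* `contraction_false` : the contradiction (K3 + K4 of `NOTES/plan/S59_TRES.md`).
* `exists_coeff_of_interp` : Lagrange interpolation with invariance (K2).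
-/

set_option autoImplicit false

open Polynomial

namespace Fermat.Agent.S59.TRes.H49

section orth

variable {C : Type*} [NormedField C] [IsUltrametricDist C]

/-- Finitely many elements such that the nonzero ones have pairwise distinct norms: every term is
bounded by the norm of the sum, and the sum is zero or has the norm of a nonzero term. -/
theorem norm_sum_of_distinct {ι : Type*} [DecidableEq ι] (s : Finset ι) (f : ι → C)
    (h : ∀ i ∈ s, ∀ j ∈ s, i ≠ j → f i ≠ 0 → f j ≠ 0 → ‖f i‖ ≠ ‖f j‖) :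
    (∀ i ∈ s, ‖f i‖ ≤ ‖∑ j ∈ s, f j‖) ∧
      (∑ j ∈ s, f j = 0 ∨ ∃ j ∈ s, f j ≠ 0 ∧ ‖∑ j ∈ s, f j‖ = ‖f j‖) := by
  induction s using Finset.induction_on with
  | empty => exact ⟨fun i hi => absurd hi (Finset.notMem_empty i), Or.inl Finset.sum_empty⟩
  | insert a t ha ih =>
    have ht : ∀ i ∈ t, ∀ j ∈ t, i ≠ j → f i ≠ 0 → f j ≠ 0 → ‖f i‖ ≠ ‖f j‖ :=
      fun i hi j hj => h i (Finset.mem_insert_of_mem hi) j (Finset.mem_insert_of_mem hj)
    obtain ⟨ih1, ih2⟩ := ih ht
    rw [Finset.sum_insert ha]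
    by_cases hfa : f a = 0
    · rw [hfa, zero_add]
      refine ⟨fun i hi => ?_, ?_⟩
      · rcases Finset.mem_insert.1 hi with rfl | hi
        · rw [hfa, norm_zero]; exact norm_nonneg _
        · exact ih1 i hi
      · rcases ih2 with h0 | ⟨j, hj, hj0, hjn⟩
        · exact Or.inl h0
        · exact Or.inr ⟨j, Finset.mem_insert_of_mem hj, hj0, hjn⟩
    rcases ih2 with h0 | ⟨j, hj, hj0, hjn⟩
    · rw [h0, add_zero]
      refine ⟨fun i hi => ?_, Or.inr ⟨a, Finset.mem_insert_self a t, hfa, rfl⟩⟩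
      rcases Finset.mem_insert.1 hi with rfl | hi
      · exact le_rfl
      · have := ih1 i hi
        rw [h0, norm_zero] at this
        exact this.trans (norm_nonneg _)
    · have hne : ‖f a‖ ≠ ‖∑ x ∈ t, f x‖ := by
        rw [hjn]
        refine h a (Finset.mem_insert_self a t) j (Finset.mem_insert_of_mem hj) ?_ hfa hj0
        rintro rfl
        exact ha hj
      have hmax := IsUltrametricDist.norm_add_eq_max_of_norm_ne_norm hne
      refine ⟨fun i hi => ?_, ?_⟩
      · rw [hmax]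
        rcases Finset.mem_insert.1 hi with rfl | hi
        · exact le_max_left _ _
        · exact (ih1 i hi).trans (le_max_right _ _)
      · right
        rcases le_total ‖f a‖ ‖∑ x ∈ t, f x‖ with hle | hle
        · exact ⟨j, Finset.mem_insert_of_mem hj, hj0, by rw [hmax, max_eq_right hle, hjn]⟩
        · exact ⟨a, Finset.mem_insert_self a t, hfa, by rw [hmax, max_eq_left hle]⟩

theorem norm_le_norm_sum_of_distinct {ι : Type*} [DecidableEq ι] (s : Finset ι) (f : ι → C)
    (h : ∀ i ∈ s, ∀ j ∈ s, i ≠ j → f i ≠ 0 → f j ≠ 0 → ‖f i‖ ≠ ‖f j‖) {i : ι} (hi : i ∈ s) :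
    ‖f i‖ ≤ ‖∑ j ∈ s, f j‖ :=
  (norm_sum_of_distinct s f h).1 i hi

/-- The norm of a finite sum is at most a common bound of the norms of the terms. -/
theorem norm_sum_le_of_forall_le' {ι : Type*} (s : Finset ι) (f : ι → C) {B : ℝ} (hB : 0 ≤ B)
    (h : ∀ i ∈ s, ‖f i‖ ≤ B) : ‖∑ j ∈ s, f j‖ ≤ B := by
  classical
  induction s using Finset.induction_on with
  | empty => simpa using hB
  | insert a t ha ih =>
    rw [Finset.sum_insert ha]
    refine (IsUltrametricDist.norm_add_le_max _ _).trans (max_le ?_ ?_)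
    · exact h a (Finset.mem_insert_self a t)
    · exact ih fun i hi => h i (Finset.mem_insert_of_mem hi)

/-- `‖a - b‖ ≤ ρ ‖b‖` and `‖a‖ = ‖b‖` give `‖a ^ k - b ^ k‖ ≤ ρ ‖b‖ ^ k`. -/
theorem norm_pow_sub_pow_le {a b : C} {ρ : ℝ} (hab : ‖a‖ = ‖b‖) (h : ‖a - b‖ ≤ ρ * ‖b‖)
    (k : ℕ) (hk : 0 < k) : ‖a ^ k - b ^ k‖ ≤ ρ * ‖b‖ ^ k := by
  induction k with
  | zero => exact absurd hk (lt_irrefl 0)
  | succ m ih =>
    rcases Nat.eq_zero_or_pos m with rfl | hm
    · simpa using h
    have e : a ^ (m + 1) - b ^ (m + 1) = a * (a ^ m - b ^ m) + (a - b) * b ^ m := by ring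
    rw [e]
    refine (IsUltrametricDist.norm_add_le_max _ _).trans (max_le ?_ ?_)
    · rw [norm_mul, hab]
      calc ‖b‖ * ‖a ^ m - b ^ m‖ ≤ ‖b‖ * (ρ * ‖b‖ ^ m) :=
            mul_le_mul_of_nonneg_left (ih hm) (norm_nonneg _)
        _ = ρ * ‖b‖ ^ (m + 1) := by ring
    · rw [norm_mul, norm_pow]
      calc ‖a - b‖ * ‖b‖ ^ m ≤ ρ * ‖b‖ * ‖b‖ ^ m :=
            mul_le_mul_of_nonneg_right h (pow_nonneg (norm_nonneg _) _)
        _ = ρ * ‖b‖ ^ (m + 1) := by ring

/-- **The contraction argument.**  `σ` an isometric ring endomorphism of `C`, `c k` fixed by `σ`,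
`α = ∑_{k<n} c_k g^k` of norm `1`, the norms `‖c_k g^k‖` (for `c_k ≠ 0`) pairwise distinct and
`≠ 1` for `k ≥ 1`, `‖σ g - g‖ ≤ ρ ‖g‖`.  Then `‖σ α - α‖ < ρ` or `σ α = α`. -/
theorem contraction (σ : C →+* C) (hσ : ∀ x, ‖σ x‖ = ‖x‖) (n : ℕ) (c : ℕ → C)
    (hc : ∀ k, σ (c k) = c k) (g α : C) (hα : α = ∑ k ∈ Finset.range n, c k * g ^ k)
    (hα1 : ‖α‖ = 1)
    (horth : ∀ i ∈ Finset.range n, ∀ j ∈ Finset.range n, i ≠ j → c i * g ^ i ≠ 0 →
      c j * g ^ j ≠ 0 → ‖c i * g ^ i‖ ≠ ‖c j * g ^ j‖)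
    (hfrac : ∀ k ∈ Finset.range n, 0 < k → ‖c k * g ^ k‖ ≠ 1)
    {ρ : ℝ} (hρ : 0 < ρ) (hg : ‖σ g - g‖ ≤ ρ * ‖g‖) :
    ‖σ α - α‖ < ρ := by
  classical
  have hterm : ∀ k ∈ Finset.range n, ‖c k * g ^ k‖ ≤ 1 := by
    intro k hk
    have := norm_le_norm_sum_of_distinct (Finset.range n) (fun k => c k * g ^ k) horth hk
    rw [← hα, hα1] at this
    exact this
  have hlt : ∀ k ∈ Finset.range n, 0 < k → ‖c k * g ^ k‖ < 1 :=
    fun k hk hk0 => lt_of_le_of_ne (hterm k hk) (hfrac k hk hk0)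
  have e : σ α - α = ∑ k ∈ Finset.range n, c k * ((σ g) ^ k - g ^ k) := by
    rw [hα, map_sum, ← Finset.sum_sub_distrib]
    refine Finset.sum_congr rfl fun k _ => ?_
    rw [map_mul, map_pow, hc k]
    ring
  -- the finite maximum of the terms with `k ≥ 1`
  obtain ⟨B, hB0, hB1, hB⟩ : ∃ B : ℝ, 0 ≤ B ∧ B < 1 ∧
      ∀ k ∈ Finset.range n, 0 < k → ‖c k * g ^ k‖ ≤ B := by
    by_cases hne : ((Finset.range n).filter fun k => 0 < k).Nonempty
    · obtain ⟨k₀, hk₀, hmax⟩ := Finset.exists_max_image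
        ((Finset.range n).filter fun k => 0 < k) (fun k => ‖c k * g ^ k‖) hne
      rw [Finset.mem_filter] at hk₀
      refine ⟨‖c k₀ * g ^ k₀‖, norm_nonneg _, hlt k₀ hk₀.1 hk₀.2, fun k hk hk0 => ?_⟩
      exact hmax k (Finset.mem_filter.2 ⟨hk, hk0⟩)
    · refine ⟨0, le_rfl, zero_lt_one, fun k hk hk0 => ?_⟩
      exact absurd ⟨k, Finset.mem_filter.2 ⟨hk, hk0⟩⟩ hne
  have hbound : ‖σ α - α‖ ≤ ρ * B := by
    rw [e]
    refine norm_sum_le_of_forall_le' _ _ (mul_nonneg hρ.le hB0) fun k hk => ?_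
    rcases Nat.eq_zero_or_pos k with rfl | hk0
    · simp only [pow_zero, sub_self, mul_zero, norm_zero]
      exact mul_nonneg hρ.le hB0
    rw [norm_mul]
    calc ‖c k‖ * ‖(σ g) ^ k - g ^ k‖ ≤ ‖c k‖ * (ρ * ‖g‖ ^ k) :=
          mul_le_mul_of_nonneg_left (norm_pow_sub_pow_le (hσ g) hg k hk0) (norm_nonneg _)
      _ = ρ * ‖c k * g ^ k‖ := by rw [norm_mul, norm_pow]; ring
      _ ≤ ρ * B := mul_le_mul_of_nonneg_left (hB k hk hk0) hρ.le
  calc ‖σ α - α‖ ≤ ρ * B := hbound
    _ < ρ * 1 := mul_lt_mul_of_pos_left hB1 hρ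
    _ = ρ := mul_one ρ

end orth

section interp

variable {F : Type*} [Field F]

/-- **Lagrange interpolation with invariance.**  Nodes `γ i` (distinct) and values `v i` indexed
by a finite type, a ring endomorphism `σ` and a permutation `π` of the indices with
`σ (γ i) = γ (π i)`, `σ (v i) = v (π i)`: the coefficients of the interpolation polynomial are
fixed by `σ`. -/
theorem coeff_interp_fixed {ι : Type*} [Fintype ι] [DecidableEq ι] (γ v : ι → F)
    (hγ : Function.Injective γ) (σ : F →+* F) (π : ι → ι) (hπ : Function.Surjective π)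
    (h1 : ∀ i, σ (γ i) = γ (π i)) (h2 : ∀ i, σ (v i) = v (π i)) (k : ℕ) :
    σ ((Lagrange.interpolate Finset.univ γ v).coeff k) =
      (Lagrange.interpolate Finset.univ γ v).coeff k := by
  set Q := Lagrange.interpolate Finset.univ γ v with hQ
  have hinj : Set.InjOn γ (Finset.univ : Finset ι) := hγ.injOn
  have hdeg : (Q.map σ).degree < (Finset.univ : Finset ι).card := by
    refine lt_of_le_of_lt (Polynomial.degree_map_le) ?_
    exact Lagrange.degree_interpolate_lt v hinj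
  have hval : ∀ j, (Q.map σ).eval (γ j) = v j := by
    intro j
    obtain ⟨i, rfl⟩ := hπ j
    rw [← h1 i, Polynomial.eval_map, Polynomial.eval₂_hom,
      Lagrange.eval_interpolate_at_node v hinj (Finset.mem_univ i), h2]
  have hQ' : Q.map σ = Q := by
    rw [Lagrange.eq_interpolate hinj hdeg, hQ]
    congr 1
    funext j
    exact hval j
  have := congrArg (fun q : F[X] => q.coeff k) hQ'
  simpa [Polynomial.coeff_map] using this

/-- The value at a node as a polynomial expression of degree `< card` in the node. -/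
theorem interp_eval_eq_sum {ι : Type*} [Fintype ι] [DecidableEq ι] (γ v : ι → F)
    (hγ : Function.Injective γ) (i : ι) :
    v i = ∑ k ∈ Finset.range (Fintype.card ι),
      (Lagrange.interpolate Finset.univ γ v).coeff k * γ i ^ k := by
  have hinj : Set.InjOn γ (Finset.univ : Finset ι) := hγ.injOn
  have hdeg : (Lagrange.interpolate Finset.univ γ v).degree < (Fintype.card ι : ℕ) := by
    have := Lagrange.degree_interpolate_lt v hinj
    simpa using this
  have h := Lagrange.eval_interpolate_at_node v hinj (Finset.mem_univ i)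
  have hnat : (Lagrange.interpolate Finset.univ γ v).natDegree < Fintype.card ι := by
    by_cases hQ0 : Lagrange.interpolate Finset.univ γ v = 0
    · rw [hQ0, Polynomial.natDegree_zero]
      exact Fintype.card_pos_iff.2 ⟨i⟩
    · exact (Polynomial.natDegree_lt_iff_degree_lt hQ0).2 hdeg
  rw [← h]
  exact Polynomial.eval_eq_sum_range' hnat _

end interp

end Fermat.Agent.S59.TRes.H49
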