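import Fermat.Agent.S59.TRes.Defs2
import Fermat.Agent.S59.TRes.H49_Contr
import Fermat.Agent.S56.FL.H15_CC2K
import Fermat.Agent.S56.FL.LF.H15_Value
import Fermat.Agent.S56.FL.H38_InertiaOnto
import Fermat.Agent.S56.FL.H15_Comp

/-!
# S59, leaf TRES (helper49): CORE (K2-K4 of `NOTES/plan/S59_TRES.md`)

`stmt_CORE : Stmt_CORE`: the field-theoretic contradiction.  A bounded finite Galois extension
`L/ℚ_p` cannot contain a family `γ : ℤ/p → L` of distinct elements, permuted by translation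
through an additive `ψ` on a normal subgroup `N ⊇ Gᵖ⁻¹` fixing `μ_p`, with
`‖γ 0‖^(p d) = p^(-M)`, `p ∤ M`, and `‖γ 1 - γ 0‖² R ≤ ‖γ 0‖²`, `p ≤ R^((p-1)/2)`.
-/

set_option autoImplicit false

noncomputable section

namespace Fermat.Agent.S59.TRes.H49

open Fermat.Agent.S56.FL Fermat.Agent.Lib.LocalKummer

/-- Powers of real numbers whose powers are powers of `p`. -/
theorem pow_mul_pow_eq_zpow {p : ℕ} {A G : ℝ} {D d M i : ℕ} {e : ℤ} (hp0 : (p : ℝ) ≠ 0)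
    (hA : A ^ D = (p : ℝ) ^ e) (hG : G ^ (p * d) = ((p : ℝ)⁻¹) ^ M) :
    (A * G ^ i) ^ (p * d * D) = (p : ℝ) ^ (e * ((p * d : ℕ) : ℤ) - ((M * i * D : ℕ) : ℤ)) := by
  have e1 : (A * G ^ i) ^ (p * d * D) = (A ^ D) ^ (p * d) * (G ^ (p * d)) ^ (i * D) := by ring
  rw [e1, hA, hG, zpow_sub₀ hp0, ← zpow_natCast ((p : ℝ) ^ e), ← zpow_mul, zpow_natCast,
    div_eq_mul_inv, ← inv_pow, ← pow_mul]
  congr 2
  ring

variable {p : ℕ} [Fact p.Prime]

/-- The value-group obstruction: `‖g‖ ∉ |K^×|^{1/k}` for `0 < k < p`. -/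
theorem norm_ne_of_tame {K : IntermediateField ℚ_[p] (PadicAlgCl p)} (hK : IsTameField p K)
    {g : PadicAlgCl p} {M d : ℕ} (hM : ¬ p ∣ M)
    (hg : ‖g‖ ^ (p * d) = ((p : ℝ)⁻¹) ^ M)
    {c₁ c₂ : PadicAlgCl p} (h₁ : c₁ ∈ K) (h₂ : c₂ ∈ K) (h₁0 : c₁ ≠ 0) (h₂0 : c₂ ≠ 0)
    {i j : ℕ} (hij : i < j) (hj : j < p) : ‖c₁ * g ^ i‖ ≠ ‖c₂ * g ^ j‖ := by
  have hp : p.Prime := Fact.out
  have hp1 : (1 : ℝ) < p := by exact_mod_cast hp.one_lt
  have hp0 : (p : ℝ) ≠ 0 := by positivity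
  obtain ⟨D, hD0, hpD, hval⟩ := hK
  obtain ⟨e₁, he₁⟩ := hval c₁ h₁ h₁0
  obtain ⟨e₂, he₂⟩ := hval c₂ h₂ h₂0
  intro heq
  rw [norm_mul, norm_mul, norm_pow, norm_pow] at heq
  have k1 := pow_mul_pow_eq_zpow (i := i) hp0 he₁ hg
  have k2 := pow_mul_pow_eq_zpow (i := j) hp0 he₂ hg
  rw [heq, k2] at k1
  have k3 := zpow_right_injective₀ (by positivity : (0 : ℝ) < p) (ne_of_gt hp1) k1
  -- `M (j - i) D = (e₂ - e₁) p d`
  have k4 : ((M * (j - i) * D : ℕ) : ℤ) = (e₂ - e₁) * ((p * d : ℕ) : ℤ) := by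
    have hji : ((j - i : ℕ) : ℤ) = (j : ℤ) - i := by
      rw [Nat.cast_sub hij.le]
    push_cast at k3 ⊢
    rw [hji]
    linear_combination -k3
  have k5 : (p : ℤ) ∣ ((M * (j - i) * D : ℕ) : ℤ) := by
    rw [k4]
    exact ⟨(e₂ - e₁) * d, by push_cast; ring⟩
  have k6 : p ∣ M * (j - i) * D := by exact_mod_cast k5
  rcases (Nat.Prime.dvd_mul hp).1 k6 with h | h
  · rcases (Nat.Prime.dvd_mul hp).1 h with h | h
    · exact hM h
    · have := Nat.le_of_dvd (by omega) h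
      omega
  · exact hpD h

/-- `ψ` is additive on powers. -/
theorem psi_pow {N : Subgroup (Gp p)} {ψ : Gp p → ZMod p}
    (hadd : ∀ n ∈ N, ∀ n' ∈ N, ψ (n * n') = ψ n + ψ n') {n : Gp p} (hn : n ∈ N) (t : ℕ) :
    ψ (n ^ t) = (t : ZMod p) * ψ n := by
  have h1 : ψ 1 = 0 := by
    have := hadd 1 N.one_mem 1 N.one_mem
    rw [mul_one] at this
    exact left_eq_add.1 this
  induction t with
  | zero => simp [h1]
  | succ t ih =>
    rw [pow_succ, hadd _ (N.pow_mem hn t) _ hn, ih]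
    push_cast
    ring

/-- CORE when `μ_p ⊆ L`. -/
theorem core_aux (hp2 : p ≠ 2) (L : IntermediateField ℚ_[p] (PadicAlgCl p))
    [FiniteDimensional ℚ_[p] L] (hNL : Normal ℚ_[p] L) (hbdd : IsBddField p L)
    (hμ : ∀ ζ : PadicAlgCl p, ζ ^ p = 1 → ζ ∈ L)
    (N : Subgroup (Gp p)) (hN : N.Normal) (hexp : ∀ g : Gp p, g ^ (p - 1) ∈ N)
    (hNζ : ∀ n ∈ N, ∀ ζ : PadicAlgCl p, ζ ^ p = 1 → n ζ = ζ)
    (ψ : Gp p → ZMod p) (hadd : ∀ n ∈ N, ∀ n' ∈ N, ψ (n * n') = ψ n + ψ n')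
    (hL : ∀ n ∈ N, n ∈ L.fixingSubgroup → ψ n = 0)
    (γ : ZMod p → PadicAlgCl p) (hγ : Function.Injective γ) (hγL : ∀ i, γ i ∈ L)
    (hperm : ∀ n ∈ N, ∀ i, n (γ i) = γ (i + ψ n))
    (M d : ℕ) (hd : 0 < d) (hM : ¬ p ∣ M) (hg : ‖γ 0‖ ^ (p * d) = ((p : ℝ)⁻¹) ^ M)
    (R : ℝ) (hR : 1 < R) (hRp : (p : ℝ) ≤ R ^ ((p - 1) / 2))
    (hstep : ‖γ 1 - γ 0‖ ^ 2 * R ≤ ‖γ 0‖ ^ 2) : False := by
  classical
  have hp : p.Prime := Fact.out
  have hp1 : (1 : ℝ) < p := by exact_mod_cast hp.one_lt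
  have hppos : (0 : ℝ) < p := by positivity
  have := hNL
  obtain ⟨ζ, hζ1, hζp⟩ := H15.exists_zeta (p := p)
  have hζ : IsPrimitiveRoot ζ p := by
    rw [IsPrimitiveRoot.iff_orderOf]
    exact orderOf_eq_prime hζp hζ1
  have hm : ¬ p ∣ (p - 1) := by
    intro h
    have h2 := hp.two_le
    have := Nat.le_of_dvd (by omega) h
    omega
  obtain ⟨α, hα, hαp⟩ := H15.exists_wit_bdd hp2 hbdd hN hm hexp hζ (hμ ζ hζp)
    (fun n hn => hNζ n hn ζ hζp) ψ hadd hL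
  have htame : IsTameField p (H15.kField L N) := H15.isTame_kField hN hm hexp
  -- `‖α‖ = 1`
  have hα1 : ‖α‖ = 1 := by
    have h1 : ‖α ^ p - 1‖ < ‖(1 : PadicAlgCl p)‖ := by
      rw [norm_one]
      exact lt_of_le_of_lt hαp (inv_lt_one_of_one_lt₀ hp1)
    have h2 : ‖α ^ p‖ = 1 := by
      have e : α ^ p = (α ^ p - 1) + 1 := by ring
      rw [e, H15.norm_add_eq_right h1, norm_one]
    rw [norm_pow] at h2
    exact (pow_eq_one_iff_of_nonneg (norm_nonneg _) hp.ne_zero).mp h2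
  -- `g = γ 0 ≠ 0`
  have hgne : γ 0 ≠ 0 := by
    intro h
    rw [h, norm_zero, zero_pow (Nat.mul_ne_zero hp.ne_zero hd.ne')] at hg
    have : ((p : ℝ)⁻¹) ^ M ≠ 0 := by positivity
    exact this hg.symm
  -- `ψ ≠ 0` on `N`
  have hψ : ∃ n ∈ N, ψ n ≠ 0 := by
    by_contra hcon
    have hcon : ∀ n ∈ N, ψ n = 0 := fun n hn => by
      by_contra h
      exact hcon ⟨n, hn, h⟩
    have hgK : γ 0 ∈ H15.kField L N :=
      H15.mem_kField.mpr ⟨hγL 0, fun n hn => by rw [hperm n hn 0, hcon n hn, add_zero]⟩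
    have h1K : (1 : PadicAlgCl p) ∈ H15.kField L N := one_mem _
    refine norm_ne_of_tame htame hM hg hgK h1K hgne one_ne_zero (i := 0) (j := 1)
      Nat.zero_lt_one hp.one_lt ?_
    rw [pow_zero, mul_one, pow_one, one_mul]
  obtain ⟨n₀, hn₀, hψn₀⟩ := hψ
  -- `σ₀ ∈ N` with `ψ σ₀ = 1`
  obtain ⟨σ₀, hσ₀N, hψσ₀⟩ : ∃ σ₀ ∈ N, ψ σ₀ = 1 := by
    refine ⟨n₀ ^ ((ψ n₀)⁻¹).val, N.pow_mem hn₀ _, ?_⟩
    rw [psi_pow hadd hn₀, ZMod.natCast_zmod_val, inv_mul_cancel₀ hψn₀]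
  -- interpolation
  set v : ZMod p → PadicAlgCl p := fun i => zpowZ ζ i * α with hv
  have hvL : ∀ i, v i ∈ L := fun i => by
    rw [hv]
    exact mul_mem (by unfold zpowZ; exact pow_mem (hμ ζ hζp) _) hα.mem
  have hvN : ∀ n ∈ N, ∀ i, n (v i) = v (i + ψ n) := by
    intro n hn i
    simp only [hv]
    rw [map_mul, hα.map hn, zpowZ_add hζp, mul_assoc]
    congr 1
    unfold zpowZ
    rw [map_pow, hNζ n hn ζ hζp]
  set c : ℕ → PadicAlgCl p := fun k => (Lagrange.interpolate Finset.univ γ v).coeff k with hc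
  have hcN : ∀ n ∈ N, ∀ k, n (c k) = c k := by
    intro n hn k
    exact coeff_interp_fixed γ v hγ ((n : PadicAlgCl p ≃ₐ[ℚ_[p]] PadicAlgCl p) :
      PadicAlgCl p →+* PadicAlgCl p) (fun i => i + ψ n)
      (fun j => ⟨j - ψ n, sub_add_cancel j (ψ n)⟩) (fun i => hperm n hn i) (fun i => hvN n hn i) k
  have hcL : ∀ k, c k ∈ L := by
    intro k
    apply H38.mem_of_fixed_by_fixingSubgroup
    intro σ hσ
    rw [IntermediateField.mem_fixingSubgroup_iff] at hσ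
    exact coeff_interp_fixed γ v hγ ((σ : PadicAlgCl p ≃ₐ[ℚ_[p]] PadicAlgCl p) :
      PadicAlgCl p →+* PadicAlgCl p) id Function.surjective_id
      (fun i => hσ _ (hγL i)) (fun i => hσ _ (hvL i)) k
  have hcK : ∀ k, c k ∈ H15.kField L N :=
    fun k => H15.mem_kField.mpr ⟨hcL k, fun n hn => hcN n hn k⟩
  have hαsum : α = ∑ k ∈ Finset.range p, c k * γ 0 ^ k := by
    have h := interp_eval_eq_sum γ v hγ 0
    rw [ZMod.card] at h
    have hv0 : v 0 = α := by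
      simp only [hv]
      rw [zpowZ_zero, one_mul]
    rw [hv0] at h
    exact h
  -- orthogonality
  have horth : ∀ i ∈ Finset.range p, ∀ j ∈ Finset.range p, i ≠ j → c i * γ 0 ^ i ≠ 0 →
      c j * γ 0 ^ j ≠ 0 → ‖c i * γ 0 ^ i‖ ≠ ‖c j * γ 0 ^ j‖ := by
    intro i hi j hj hij hi0 hj0
    have hci : c i ≠ 0 := left_ne_zero_of_mul hi0
    have hcj : c j ≠ 0 := left_ne_zero_of_mul hj0
    rcases lt_or_gt_of_ne hij with h | h
    · exact norm_ne_of_tame htame hM hg (hcK i) (hcK j) hci hcj h (Finset.mem_range.1 hj)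
    · exact (norm_ne_of_tame htame hM hg (hcK j) (hcK i) hcj hci h (Finset.mem_range.1 hi)).symm
  have hfrac : ∀ k ∈ Finset.range p, 0 < k → ‖c k * γ 0 ^ k‖ ≠ 1 := by
    intro k hk hk0
    by_cases hck : c k = 0
    · rw [hck, zero_mul, norm_zero]
      exact zero_ne_one
    · have h1K : (1 : PadicAlgCl p) ∈ H15.kField L N := one_mem _
      have := norm_ne_of_tame htame hM hg h1K (hcK k) one_ne_zero hck hk0 (Finset.mem_range.1 hk)
      rw [pow_zero, mul_one, norm_one] at this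
      exact this.symm
  -- the contraction constant
  have hR0 : 0 < R := by linarith
  set ρ : ℝ := (Real.sqrt R)⁻¹ with hρdef
  have hsq : 0 < Real.sqrt R := Real.sqrt_pos.2 hR0
  have hρ : 0 < ρ := inv_pos.2 hsq
  have hρ2 : ρ ^ 2 = R⁻¹ := by
    rw [hρdef, inv_pow, Real.sq_sqrt hR0.le]
  have hstep' : ‖(σ₀ : PadicAlgCl p →+* PadicAlgCl p) (γ 0) - γ 0‖ ≤ ρ * ‖γ 0‖ := by
    have e : (σ₀ : PadicAlgCl p →+* PadicAlgCl p) (γ 0) = γ 1 := by
      have := hperm σ₀ hσ₀N 0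
      rw [hψσ₀, zero_add] at this
      exact this
    rw [e, ← pow_le_pow_iff_left₀ (norm_nonneg _) (mul_nonneg hρ.le (norm_nonneg _)) two_ne_zero,
      mul_pow, hρ2, inv_mul_eq_div, le_div_iff₀ hR0]
    exact hstep
  have hcontr := contraction (σ₀ : PadicAlgCl p →+* PadicAlgCl p) (fun x => norm_gal p σ₀ x) p c
    (fun k => hcN σ₀ hσ₀N k) (γ 0) α hαsum hα1 horth hfrac hρ hstep'
  -- `σ₀ α - α = (ζ - 1) α`
  have hσα : (σ₀ : PadicAlgCl p →+* PadicAlgCl p) α = ζ * α := by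
    have := hα.map hσ₀N
    rw [hψσ₀] at this
    have h1 : zpowZ ζ (1 : ZMod p) = ζ := by
      have := zpowZ_natCast (ℓ := p) hζp 1
      rwa [Nat.cast_one, pow_one] at this
    rw [h1] at this
    exact this
  have hnorm : ‖(σ₀ : PadicAlgCl p →+* PadicAlgCl p) α - α‖ = ‖ζ - 1‖ := by
    rw [hσα, ← sub_one_mul, norm_mul, hα1, mul_one]
  have hz := H15.norm_zeta_sub_one hζ1 hζp
  have hodd : p - 1 = 2 * ((p - 1) / 2) := by
    rcases hp.eq_two_or_odd with h | h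
    · exact absurd h hp2
    · omega
  have hρp : ρ ^ (p - 1) ≤ (p : ℝ)⁻¹ := by
    rw [hodd, pow_mul, hρ2, inv_pow]
    exact inv_anti₀ hppos hRp
  have hle : ρ ≤ ‖ζ - 1‖ := by
    rw [← hz] at hρp
    have h2 := hp.two_le
    exact (pow_le_pow_iff_left₀ hρ.le (norm_nonneg _) (by omega : p - 1 ≠ 0)).1 hρp
  rw [hnorm] at hcontr
  linarith

/-- **CORE**. -/
theorem stmt_CORE : Stmt_CORE := by
  intro p _ hp2 L _ hNL hbdd N hN hexp hNζ ψ hadd hL γ hγ hγL hperm M d hd hM hg R hR hRp hstep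
  have := hNL
  have : Normal ℚ_[p] (H15.cycloField p) := H15.normal_cycloField
  refine core_aux hp2 (L ⊔ H15.cycloField p) inferInstance
    (H15.isBdd_sup hp2 hNL H15.normal_cycloField hbdd H15.isBdd_cycloField)
    (fun ζ hζ => (le_sup_right : H15.cycloField p ≤ L ⊔ H15.cycloField p)
      (H15.mem_cycloField_of_pow_eq_one hζ))
    N hN hexp hNζ ψ hadd ?_ γ hγ (fun i => (le_sup_left : L ≤ L ⊔ H15.cycloField p) (hγL i))
    hperm M d hd hM hg R hR hRp hstep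
  intro n hn hfix
  refine hL n hn ?_
  rw [IntermediateField.mem_fixingSubgroup_iff] at hfix ⊢
  exact fun x hx => hfix x ((le_sup_left : L ≤ L ⊔ H15.cycloField p) hx)

end Fermat.Agent.S59.TRes.H49

end
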