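import Fermat.Agent.Lib.LocalGlobalDense
import Fermat.Agent.S56.FL.Coh

/-!
# S59, leaf TRES (helper49): dictionary between `padicPlace p` and the `p`-adic norm
-/

set_option autoImplicit false

namespace Fermat.Agent.S59.TRes.H49

open Fermat.Agent.Lib.LocalGlobalDense

variable (p : ℕ) [Fact p.Prime]

example (c : ℚ_[p]) : ‖algebraMap ℚ_[p] (PadicAlgCl p) c‖ = ‖c‖ := norm_algebraMap' _ c

/-- Dictionary: the valuation of `padicPlace p` versus the `p`-adic norm. -/
theorem val_le_iff (x y : AlgebraicClosure ℚ) :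
    (padicPlace p).valuation x ≤ (padicPlace p).valuation y ↔
      ‖padicEmbedding p x‖ ≤ ‖padicEmbedding p y‖ := by
  by_cases hy : y = 0
  · subst hy
    rw [map_zero, map_zero, norm_zero, le_zero_iff, map_eq_zero, norm_le_zero_iff, map_eq_zero]
  · have hvy : 0 < (padicPlace p).valuation y := zero_lt_iff.2 (by simpa using hy)
    have hny : 0 < ‖padicEmbedding p y‖ := norm_pos_iff.2 (by simpa using hy)
    rw [← div_le_one₀ hvy, ← map_div₀, ValuationSubring.valuation_le_one_iff,
      ← absQ_le_one_iff, absQ_apply, map_div₀, norm_div, div_le_one₀ hny]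

theorem val_lt_iff (x y : AlgebraicClosure ℚ) :
    (padicPlace p).valuation x < (padicPlace p).valuation y ↔
      ‖padicEmbedding p x‖ < ‖padicEmbedding p y‖ := by
  rw [← not_le, ← not_le, val_le_iff]

theorem val_eq_iff (x y : AlgebraicClosure ℚ) :
    (padicPlace p).valuation x = (padicPlace p).valuation y ↔
      ‖padicEmbedding p x‖ = ‖padicEmbedding p y‖ := by
  rw [le_antisymm_iff, le_antisymm_iff, val_le_iff, val_le_iff]

/-- The distinguished place lies over `p`. -/
theorem padicPlace_liesOver49 : (padicPlace p).LiesOverPrime p := by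
  show ((p : ℕ) : AlgebraicClosure ℚ) ∈ (padicPlace p).nonunits
  rw [ValuationSubring.mem_nonunits_iff_or]
  right
  rw [← absQ_le_one_iff, map_inv₀, absQ_natCast_self, inv_inv, not_le]
  exact_mod_cast (Fact.out : p.Prime).one_lt

theorem norm_emb_natCast_self : ‖padicEmbedding p (p : AlgebraicClosure ℚ)‖ = (p : ℝ)⁻¹ :=
  absQ_natCast_self p

/-- The norm of an integer. -/
theorem norm_emb_intCast (z : ℤ) (hz : z ≠ 0) :
    ‖padicEmbedding p (z : AlgebraicClosure ℚ)‖ = ((p : ℝ)⁻¹) ^ (padicValInt p z) := by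
  rw [map_intCast]
  have h1 : ((z : ℤ) : PadicAlgCl p) = algebraMap ℚ_[p] (PadicAlgCl p) ((z : ℚ) : ℚ_[p]) := by
    rw [Rat.cast_intCast, map_intCast]
  rw [h1, norm_algebraMap', Padic.eq_padicNorm, padicNorm.eq_zpow_of_nonzero (by exact_mod_cast hz),
    padicValRat.of_int]
  push_cast
  rw [zpow_neg, zpow_natCast, inv_pow]

end Fermat.Agent.S59.TRes.H49
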