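import Fermat.Agent.S52.H5_Unip
import Fermat.Agent.S05.H28_E1add
import Fermat.Agent.S05.Line

/-!
# S59, leaf TRES (helper49): elliptic prerequisites of the assembly

`xc` (the `x`-coordinate), its Galois equivariance, `e1Sub` (the kernel of reduction as a
subgroup), points with the same `x`-coordinate.
-/

set_option autoImplicit false

open WeierstrassCurve WeierstrassCurve.Affine

namespace Fermat.Agent.S59.TRes.H49

open Fermat.Agent.S52.H5 Fermat.Agent.S05 Fermat.Agent.Lib.PointVariableChange

section xc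

variable {F : Type*} [Field F]

/-- The `x`-coordinate, with junk value `0` at the origin. -/
def xc {W : Affine F} : W.Point → F
  | .zero => 0
  | .some x _ _ => x

@[simp] lemma xc_some {W : Affine F} {x y : F} (h : W.Nonsingular x y) :
    xc (Point.some x y h) = x := rfl

/-- Nonzero points with the same `x`-coordinate are equal or opposite. -/
theorem eq_or_eq_neg_of_xc_eq [DecidableEq F] {W : Affine F} {Q₁ Q₂ : W.Point} (h₁ : Q₁ ≠ 0)
    (h₂ : Q₂ ≠ 0) (h : xc Q₁ = xc Q₂) : Q₁ = Q₂ ∨ Q₁ = -Q₂ := by
  rcases Q₁ with _ | ⟨x₁, y₁, n₁⟩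
  · exact absurd rfl h₁
  rcases Q₂ with _ | ⟨x₂, y₂, n₂⟩
  · exact absurd rfl h₂
  simp only [xc_some] at h
  subst h
  rcases Y_eq_of_X_eq n₁.left n₂.left rfl with hy | hy
  · left
    subst hy
    rfl
  · right
    rw [Point.neg_some]
    subst hy
    rfl

end xc

section gal

variable (W : WeierstrassCurve ℤ)

/-- The `x`-coordinate is Galois equivariant. -/
theorem xc_smul (σ : Qb ≃ₐ[ℚ] Qb) (Q : (EQ W).Point) : xc (σ • Q) = σ (xc Q) := by
  rcases Q with _ | ⟨x, y, h⟩
  · exact (map_zero σ).symm
  · rfl

end gal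

section model

variable {L : Type*} [Field L] [DecidableEq L]

/-- The kernel of reduction as a subgroup. -/
def e1Sub (A : ValuationSubring L) (W : Affine L) (hyp : ModelHyp A W) : AddSubgroup W.Point where
  carrier := {Q | InE1 A Q}
  zero_mem' := trivial
  add_mem' := fun {P Q} hP hQ => H28.stmt_E1_add_of line A W hyp P Q hP hQ
  neg_mem' := by
    intro Q hQ
    rcases Q with _ | ⟨x, y, h⟩
    · exact hQ
    · exact hQ

lemma mem_e1Sub {A : ValuationSubring L} {W : Affine L} (hyp : ModelHyp A W) (Q : W.Point) :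
    Q ∈ e1Sub A W hyp ↔ InE1 A Q := Iff.rfl

/-- The `x`-coordinate under a change of variables. -/
lemma xc_equiv (E : Affine L) (C : VariableChange L) {x y : L}
    (h : (C • E).toAffine.Nonsingular x y) : xc (equiv E C (.some x y h)) = vcX C x := rfl

end model

end Fermat.Agent.S59.TRes.H49
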