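/-
S59, leaf TRES, sub-leaf GRP (K1) (helper77): pure group theory.

`X` an abelian group with an action of `G`, `T`, `P` independent elements of order `p`, the action
upper triangular in `(T, P)`.  Then `N = {g | g T = T, g P - P ∈ ⟨T⟩}` is a normal subgroup
containing all `(p-1)`-th powers, and `n P = P + ψ(n) T` on `N` with `ψ` additive.
-/
import Fermat.Agent.S59.TRes.Defs2

set_option autoImplicit false

namespace Fermat.Agent.S59.TRes.H77

section

variable {p : ℕ} [hp : Fact p.Prime] {G : Type} [Group G] {X : Type} [AddCommGroup X]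
  (act : G →* AddMonoid.End X) (T P : X)

/-- multiples of an element killed by `p` only depend on the class modulo `p` -/
theorem zsmul_congr_of_cast_eq {Y : X} (hY : p • Y = 0) {a a' : ℤ}
    (h : (a : ZMod p) = (a' : ZMod p)) : a • Y = a' • Y := by
  have h1 : (p : ℤ) ∣ a - a' := by
    rw [← ZMod.intCast_zmod_eq_zero_iff_dvd]
    push_cast
    rw [h, sub_self]
  obtain ⟨k, hk⟩ := h1
  have h2 : a = a' + k * p := by linarith
  rw [h2, add_smul, mul_smul, natCast_zsmul, hY, smul_zero, add_zero]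

variable {T P}

/-- uniqueness of the coordinates -/
theorem cast_eq_of_comb_eq
    (hind : ∀ a c : ℤ, a • P + c • T = 0 → (p : ℤ) ∣ a ∧ (p : ℤ) ∣ c)
    {a c a' c' : ℤ} (h : a • P + c • T = a' • P + c' • T) :
    (a : ZMod p) = (a' : ZMod p) ∧ (c : ZMod p) = (c' : ZMod p) := by
  have h1 : (a - a') • P + (c - c') • T = 0 := by
    rw [sub_smul, sub_smul]
    have : a • P - a' • P + (c • T - c' • T) = (a • P + c • T) - (a' • P + c' • T) := by abel
    rw [this, h, sub_self]
  obtain ⟨h2, h3⟩ := hind _ _ h1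
  rw [← ZMod.intCast_zmod_eq_zero_iff_dvd] at h2 h3
  push_cast at h2 h3
  exact ⟨sub_eq_zero.1 h2, sub_eq_zero.1 h3⟩

theorem act_inv_act (g : G) (x : X) : act g⁻¹ (act g x) = x := by
  have h : act (g⁻¹ * g) x = x := by rw [inv_mul_cancel, map_one]; rfl
  rwa [map_mul] at h

theorem act_act_inv (g : G) (x : X) : act g (act g⁻¹ x) = x := by
  have h := act_inv_act act g⁻¹ x
  rwa [inv_inv] at h

theorem act_zsmul (g : G) (a : ℤ) (x : X) : act g (a • x) = a • act g x :=
  map_zsmul (act g) a x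

/-- the subgroup `N` -/
def grpN (act : G →* AddMonoid.End X) (T P : X) : Subgroup G where
  carrier := {g | act g T = T ∧ ∃ c : ℤ, act g P = P + c • T}
  one_mem' := ⟨by rw [map_one]; rfl, 0, by rw [map_one, zero_smul, add_zero]; rfl⟩
  mul_mem' := by
    rintro g g' ⟨hg, c, hc⟩ ⟨hg', c', hc'⟩
    refine ⟨?_, c + c', ?_⟩
    · rw [map_mul]
      show act g (act g' T) = T
      rw [hg', hg]
    · rw [map_mul]
      show act g (act g' P) = _
      rw [hc', map_add, act_zsmul, hg, hc, add_smul, add_assoc]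
  inv_mem' := by
    rintro g ⟨hg, c, hc⟩
    have h1 : act g⁻¹ T = T := by
      have := act_inv_act act g T
      rwa [hg] at this
    refine ⟨h1, -c, ?_⟩
    have h2 := act_inv_act act g P
    rw [hc, map_add, act_zsmul, h1] at h2
    rw [neg_smul, ← sub_eq_add_neg, eq_sub_iff_add_eq]
    exact h2

theorem mem_grpN {g : G} :
    g ∈ grpN act T P ↔ act g T = T ∧ ∃ c : ℤ, act g P = P + c • T := Iff.rfl

end

/-- **GRP** (K1). -/
theorem stmt_GRP : Stmt_GRP := by
  classical
  intro p hp G _ X _ act T P hT hP hind hgT hgP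
  have hpp : p.Prime := hp.out
  -- `T ≠ 0`, `P ∉ ⟨T⟩`
  have h1not : ¬ (p : ℤ) ∣ 1 := by
    intro h
    have := Int.eq_one_of_dvd_one (Int.natCast_nonneg p) h
    have h2 : p = 1 := by exact_mod_cast this
    exact hpp.one_lt.ne' h2
  have hPT : ∀ c : ℤ, P ≠ c • T := by
    intro c h
    have h2 : (1 : ℤ) • P + (-c) • T = 0 := by
      rw [one_smul, neg_smul, ← h, add_neg_cancel]
    exact h1not (hind _ _ h2).1
  have hT0 : T ≠ 0 := by
    intro h
    have h2 : (0 : ℤ) • P + (1 : ℤ) • T = 0 := by rw [zero_smul, one_smul, h, add_zero]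
    exact h1not (hind _ _ h2).2
  -- the diagonal coefficients are units modulo `p`
  have hdiagT : ∀ g, ∃ a : ℤ, act g T = a • T ∧ (a : ZMod p) ≠ 0 := by
    intro g
    obtain ⟨a, ha⟩ := hgT g
    refine ⟨a, ha, fun h0 => hT0 ?_⟩
    have h2 : a • T = (0 : ℤ) • T := zsmul_congr_of_cast_eq hT (by rw [h0]; simp)
    rw [zero_smul] at h2
    have h3 := act_inv_act act g T
    rw [ha, h2, map_zero] at h3
    exact h3.symm
  have hdiagP : ∀ g, ∃ a c : ℤ, act g P = a • P + c • T ∧ (a : ZMod p) ≠ 0 := by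
    intro g
    obtain ⟨a, c, hac⟩ := hgP g
    refine ⟨a, c, hac, fun h0 => ?_⟩
    have h2 : a • P = (0 : ℤ) • P := zsmul_congr_of_cast_eq hP (by rw [h0]; simp)
    rw [zero_smul] at h2
    obtain ⟨a', ha'⟩ := hgT g⁻¹
    have h3 := act_inv_act act g P
    rw [hac, h2, zero_add, act_zsmul, ha', ← mul_smul] at h3
    exact hPT _ h3.symm
  -- powers
  have hpow : ∀ (g : G) (a b c : ℤ), act g T = a • T → act g P = b • P + c • T →
      ∀ k : ℕ, act (g ^ k) T = (a ^ k) • T ∧ ∃ c' : ℤ, act (g ^ k) P = (b ^ k) • P + c' • T := by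
    intro g a b c ha hb k
    induction k with
    | zero =>
      refine ⟨by rw [pow_zero, map_one, pow_zero, one_smul]; rfl, 0, ?_⟩
      rw [pow_zero, map_one, pow_zero, one_smul, zero_smul, add_zero]
      rfl
    | succ k ih =>
      obtain ⟨ih1, c', ih2⟩ := ih
      refine ⟨?_, b * c' + c * a ^ k, ?_⟩
      · rw [pow_succ, map_mul]
        show act (g ^ k) (act g T) = _
        rw [ha, act_zsmul, ih1, ← mul_smul, pow_succ, mul_comm]
      · rw [pow_succ, map_mul]
        show act (g ^ k) (act g P) = _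
        rw [hb, map_add, act_zsmul, act_zsmul, ih2, ih1, smul_add, ← mul_smul, ← mul_smul,
          ← mul_smul, add_smul, pow_succ, mul_comm (b ^ k) b, add_assoc]
  -- the subgroup and the map
  have hNpow : ∀ g : G, g ^ (p - 1) ∈ grpN act T P := by
    intro g
    obtain ⟨a, ha, ha0⟩ := hdiagT g
    obtain ⟨b, c, hb, hb0⟩ := hdiagP g
    obtain ⟨h1, c', h2⟩ := hpow g a b c ha hb (p - 1)
    have ea : ((a ^ (p - 1) : ℤ) : ZMod p) = ((1 : ℤ) : ZMod p) := by
      push_cast
      exact ZMod.pow_card_sub_one_eq_one ha0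
    have eb : ((b ^ (p - 1) : ℤ) : ZMod p) = ((1 : ℤ) : ZMod p) := by
      push_cast
      exact ZMod.pow_card_sub_one_eq_one hb0
    refine ⟨?_, c', ?_⟩
    · rw [h1, zsmul_congr_of_cast_eq hT ea, one_smul]
    · rw [h2, zsmul_congr_of_cast_eq hP eb, one_smul]
  have hNnormal : (grpN act T P).Normal := by
    refine ⟨fun n hn g => ?_⟩
    obtain ⟨hnT, c, hnP⟩ := hn
    obtain ⟨a', ha'⟩ := hgT g⁻¹
    obtain ⟨b', c', hb'⟩ := hgP g⁻¹
    obtain ⟨a, ha⟩ := hgT g
    refine ⟨?_, b' * c * a, ?_⟩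
    · rw [map_mul, map_mul]
      show act g (act n (act g⁻¹ T)) = T
      rw [ha', act_zsmul, hnT, ← ha']
      exact act_act_inv act g T
    · rw [map_mul, map_mul]
      show act g (act n (act g⁻¹ P)) = _
      have e1 : act n (act g⁻¹ P) = act g⁻¹ P + (b' * c) • T := by
        rw [hb', map_add, act_zsmul, act_zsmul, hnT, hnP, smul_add, mul_smul]
        abel
      rw [e1, map_add, act_act_inv, act_zsmul, ha, ← mul_smul]
  -- the map `ψ`
  let ψ : G → ZMod p := fun g =>
    if h : ∃ c : ℤ, act g P = P + c • T then ((Classical.choose h : ℤ) : ZMod p) else 0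
  have hψ : ∀ (g : G) (c : ℤ), act g P = P + c • T → ψ g = (c : ZMod p) := by
    intro g c hc
    have h : ∃ c : ℤ, act g P = P + c • T := ⟨c, hc⟩
    have h1 : ψ g = ((Classical.choose h : ℤ) : ZMod p) := dif_pos h
    rw [h1]
    have h2 := Classical.choose_spec h
    have h3 : (1 : ℤ) • P + (Classical.choose h) • T = (1 : ℤ) • P + c • T := by
      rw [one_smul, ← h2, hc]
    exact (cast_eq_of_comb_eq hind h3).2
  refine ⟨grpN act T P, ψ, hNnormal, hNpow, ?_, ?_, ?_, ?_⟩
  · rintro n ⟨hnT, c, hc⟩ n' ⟨hn'T, c', hc'⟩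
    have h1 : act (n * n') P = P + (c + c') • T := by
      rw [map_mul]
      show act n (act n' P) = _
      rw [hc', map_add, act_zsmul, hnT, hc, add_smul, add_assoc]
    rw [hψ _ _ h1, hψ _ _ hc, hψ _ _ hc']
    push_cast
    rfl
  · rintro n ⟨hnT, -⟩
    exact hnT
  · rintro n ⟨hnT, c, hc⟩
    rw [hc, hψ _ _ hc, ← natCast_zsmul]
    congr 1
    apply zsmul_congr_of_cast_eq hT
    push_cast
    rw [ZMod.natCast_val, ZMod.cast_id', id]
  · rintro n ⟨hnT, c, hc⟩ hnP
    rw [hψ _ _ hc]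
    have h1 : (0 : ℤ) • P + c • T = 0 := by
      rw [zero_smul, zero_add]
      rw [hnP] at hc
      exact (left_eq_add.1 hc)
    have h2 := (hind _ _ h1).2
    rwa [← ZMod.intCast_zmod_eq_zero_iff_dvd] at h2

end Fermat.Agent.S59.TRes.H77
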