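import Fermat.Agent.S59.TRes.Defs4
import Fermat.Agent.S59.TRes.H49_Dict
import Fermat.Agent.S59.TRes.H49_Ell
import Fermat.Agent.S59.TRes.H49_Core
import Fermat.Agent.S59.TRes.H77_Grp
import Fermat.Agent.S56.FL.H38_InertiaOnto

/-!
# S59, leaf TRES (helper49): assembly, part B (from the elliptic data to the contradiction)

Given two independent points `P`, `T` of order `p` on `E = EQ W` on which `Gal(K̄/ℚ_p)` acts by
upper triangular matrices, a `D`-fixed `x₀`, and the norm data of `g = x(P) - x₀` and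
`x(P + T) - x(P)`: the field of `E[p]` is not contained in a bounded `L`.
(`H77.stmt_GRP`, `Stmt_CYC`, `H49.stmt_CORE`.)
-/

set_option autoImplicit false

open WeierstrassCurve WeierstrassCurve.Affine

namespace Fermat.Agent.S59.TRes.H49

open Fermat.Agent.S56.FL Fermat.Agent.S52.H5

/-- `(k % p) • T = k • T` when `p • T = 0`. -/
theorem mod_nsmul_of {X : Type*} [AddCommGroup X] {p : ℕ} {T : X} (hT : p • T = 0) (k : ℕ) :
    (k % p) • T = k • T := by
  conv_rhs => rw [← Nat.mod_add_div k p]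
  rw [add_nsmul, mul_nsmul, hT, nsmul_zero, add_zero]

section

variable {p : ℕ} [Fact p.Prime] (W : WeierstrassCurve ℤ)

/-- The action of the local Galois group on the points, as a monoid homomorphism. -/
noncomputable def locAct (p : ℕ) [Fact p.Prime] (W : WeierstrassCurve ℤ) :
    Gp p →* AddMonoid.End (EQ W).Point :=
  (DistribMulAction.toAddMonoidEnd (Qb ≃ₐ[ℚ] Qb) (EQ W).Point).comp (localGaloisToGlobal p)

lemma locAct_apply (τ : Gp p) (Q : (EQ W).Point) :
    locAct p W τ Q = localGaloisToGlobal p τ • Q := rfl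

lemma loc_smul_add (τ : Gp p) (Q₁ Q₂ : (EQ W).Point) :
    localGaloisToGlobal p τ • (Q₁ + Q₂) =
      localGaloisToGlobal p τ • Q₁ + localGaloisToGlobal p τ • Q₂ :=
  map_add (galAdd W (localGaloisToGlobal p τ)) Q₁ Q₂

lemma loc_smul_nsmul (τ : Gp p) (k : ℕ) (Q : (EQ W).Point) :
    localGaloisToGlobal p τ • (k • Q) = k • (localGaloisToGlobal p τ • Q) :=
  map_nsmul (galAdd W (localGaloisToGlobal p τ)) k Q

/-- The Galois action on `ι (x(Q) - x₀)`. -/
lemma gal_emb_xc (τ : Gp p) (x₀ : Qb) (hx₀ : localGaloisToGlobal p τ x₀ = x₀)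
    (Q : (EQ W).Point) :
    τ (padicEmbedding p (xc Q - x₀)) =
      padicEmbedding p (xc (localGaloisToGlobal p τ • Q) - x₀) := by
  rw [← padicEmbedding_localGaloisToGlobal, map_sub, hx₀, xc_smul]

/-- **Assembly, part B.** -/
theorem false_of_data (hp2 : p ≠ 2)
    (L : IntermediateField ℚ_[p] (PadicAlgCl p)) [FiniteDimensional ℚ_[p] L]
    (hNL : Normal ℚ_[p] L) (hbdd : IsBddField p L)
    (htriv : ∀ σ : Gp p, σ ∈ L.fixingSubgroup →
      ∀ P : (EQ W).Point, p • P = 0 → localGaloisToGlobal p σ • P = P)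
    (hCYC : Stmt_CYC)
    (P T : (EQ W).Point) (hP : p • P = 0) (hT : p • T = 0)
    (hind : ∀ a c : ℤ, a • P + c • T = 0 → (p : ℤ) ∣ a ∧ (p : ℤ) ∣ c)
    (h1 : ∀ τ : Gp p, ∃ a : ℤ, localGaloisToGlobal p τ • T = a • T)
    (h2 : ∀ τ : Gp p, ∃ a c : ℤ, localGaloisToGlobal p τ • P = a • P + c • T)
    (x₀ : Qb) (hx₀ : ∀ τ : Gp p, localGaloisToGlobal p τ x₀ = x₀)
    (M d : ℕ) (hd : 0 < d) (hM : ¬ p ∣ M)
    (hg : ‖padicEmbedding p (xc P - x₀)‖ ^ (p * d) = ((p : ℝ)⁻¹) ^ M)
    (R : ℝ) (hR : 1 < R) (hRp : (p : ℝ) ≤ R ^ ((p - 1) / 2))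
    (hstep : ‖padicEmbedding p (xc (P + T) - xc P)‖ ^ 2 * R ≤
      ‖padicEmbedding p (xc P - x₀)‖ ^ 2) : False := by
  have hp : p.Prime := Fact.out
  have hp3 : 3 ≤ p := by
    have := hp.two_le
    omega
  obtain ⟨N₀, ψ, hN₀, hexp₀, hadd, hNT, hNP, hψ0⟩ :=
    H77.stmt_GRP p (Gp p) (EQ W).Point (locAct p W) T P hT hP hind h1 h2
  obtain ⟨Nc, hNc, hexpc, hζc⟩ := hCYC p
  -- the points `P + k T`
  have hQp : ∀ k : ℕ, p • (P + k • T) = 0 := by
    intro k
    rw [nsmul_add, hP, zero_add, ← mul_nsmul, mul_comm, mul_nsmul, hT, nsmul_zero]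
  have hQ0 : ∀ k : ℕ, P + k • T ≠ 0 := by
    intro k h0
    have := (hind 1 k (by rw [one_smul, natCast_zsmul]; exact h0)).1
    have h1' : (p : ℤ) ≤ 1 := Int.le_of_dvd one_pos this
    have : (3 : ℤ) ≤ p := by exact_mod_cast hp3
    omega
  -- the family `γ`
  set γ : ZMod p → PadicAlgCl p := fun i => padicEmbedding p (xc (P + i.val • T) - x₀) with hγdef
  have hγ0 : γ 0 = padicEmbedding p (xc P - x₀) := by
    simp only [hγdef]
    rw [ZMod.val_zero, zero_nsmul, add_zero]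
  have hval1 : (1 : ZMod p).val = 1 := ZMod.val_one'' hp.ne_one
  have hγ1 : γ 1 - γ 0 = padicEmbedding p (xc (P + T) - xc P) := by
    rw [hγ0]
    simp only [hγdef]
    rw [hval1, one_nsmul, ← map_sub]
    congr 1
    ring
  refine stmt_CORE p hp2 L hNL hbdd (N₀ ⊓ Nc) ?_ ?_ ?_ ψ ?_ ?_ γ ?_ ?_ ?_ M d hd hM
    (by rw [hγ0]; exact hg) R hR hRp (by rw [hγ1, hγ0]; exact hstep)
  · -- normal
    exact ⟨fun n hn g => ⟨hN₀.conj_mem n hn.1 g, hNc.conj_mem n hn.2 g⟩⟩
  · exact fun g => ⟨hexp₀ g, hexpc g⟩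
  · exact fun n hn ζ hζ => hζc n hn.2 ζ hζ
  · exact fun n hn n' hn' => hadd n hn.1 n' hn'.1
  · intro n hn hfix
    exact hψ0 n hn.1 (htriv n hfix P hP)
  · -- injectivity
    intro i j hij
    simp only [hγdef] at hij
    have h3 := (padicEmbedding p).toRingHom.injective hij
    have h4 : xc (P + i.val • T) = xc (P + j.val • T) := by
      have := sub_left_injective h3
      exact this
    rcases eq_or_eq_neg_of_xc_eq (hQ0 _) (hQ0 _) h4 with h5 | h5
    · have h6 : (0 : ℤ) • P + ((i.val : ℤ) - (j.val : ℤ)) • T = 0 := by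
        rw [zero_zsmul, zero_add, sub_zsmul, natCast_zsmul, natCast_zsmul, add_neg_eq_zero]
        exact add_left_cancel h5
      have h7 := (hind _ _ h6).2
      have h8 : ((i.val : ℤ) : ZMod p) = ((j.val : ℤ) : ZMod p) := by
        rw [← sub_eq_zero, ← Int.cast_sub]
        exact (ZMod.intCast_zmod_eq_zero_iff_dvd _ p).2 h7
      simpa using h8
    · exfalso
      have h6 : (2 : ℤ) • P + ((i.val : ℤ) + (j.val : ℤ)) • T = 0 := by
        have h7 : (P + i.val • T) + (P + j.val • T) = 0 := by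
          rw [h5]
          exact neg_add_cancel _
        rw [add_zsmul, natCast_zsmul, natCast_zsmul, ← h7]
        abel
      have h7 := (hind _ _ h6).1
      have h8 : (p : ℤ) ≤ 2 := Int.le_of_dvd two_pos h7
      have : (3 : ℤ) ≤ p := by exact_mod_cast hp3
      omega
  · -- `γ i ∈ L`
    intro i
    apply H38.mem_of_fixed_by_fixingSubgroup
    intro σ hσ
    simp only [hγdef]
    rw [gal_emb_xc W σ x₀ (hx₀ σ), htriv σ hσ _ (hQp _)]
  · -- permutation
    intro n hn i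
    simp only [hγdef]
    rw [gal_emb_xc W n x₀ (hx₀ n), loc_smul_add, loc_smul_nsmul]
    have e1 : localGaloisToGlobal p n • P = P + (ψ n).val • T := hNP n hn.1
    have e2 : localGaloisToGlobal p n • T = T := hNT n hn.1
    have e3 : P + (ψ n).val • T + i.val • T = P + (i + ψ n).val • T := by
      rw [add_assoc, ← add_nsmul, ZMod.val_add, mod_nsmul_of hT, add_comm (ψ n).val]
    rw [e1, e2, e3]

end

end Fermat.Agent.S59.TRes.H49
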