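/-
S59, leaf TRES, sub-leaf SMALL (E1) (helper77): on the S05 model `y² = x³ + a x² + b x`
(`|a| = 1`, `|b| < 1`) over an algebraically closed valued field of characteristic `0` and odd
residue characteristic `p` there is a point of order `p` in the annulus `|b| < |x| < 1`, with
`|x|^p = |b|^n`, `0 < n < p`.

ROOT (`Tate.T6.H97.stmt_ROOT`) gives `|x| < 1`; the component map `S05.M1.compMap` is additive
with values in `Γˣ/⟨|b|²⟩`, and the class of `|b|` has order `2`.
-/
import Fermat.Agent.S59.TRes.Defs2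
import Fermat.Agent.Tate.T6.H97_Root
import Fermat.Agent.S05.M1
import Fermat.Agent.S05.H6_M1Cases

set_option autoImplicit false

open WeierstrassCurve WeierstrassCurve.Affine

namespace Fermat.Agent.S59.TRes.H77

open Fermat.Agent.S05 Fermat.Agent.S05.M1

/-- **SMALL** (E1). -/
theorem stmt_SMALL : Stmt_SMALL := by
  classical
  intro L _ _ _ _ A p hp hp2 hpv W hyp hb hΔ
  obtain ⟨x, y, h, hpP, hx1⟩ := Fermat.Agent.Tate.T6.H97.stmt_ROOT L A p hp hp2 hpv W hyp hb hΔ
  obtain ⟨β, hβ⟩ : ∃ β : L, β ^ 2 = W.a₂ := IsAlgClosed.exists_pow_nat_eq _ (by norm_num)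
  let φ : W.Point →+ Additive (CompGroup hyp) :=
    AddMonoidHom.mk' (M1.compMap hyp β) (M1.compMap_add hyp H6.M1_E0E0 H6.M1_E0Cp hb hβ)
  have hφ : ∀ Q, φ Q = M1.compMap hyp β Q := fun _ => rfl
  have hφP : p • φ (Point.some x y h) = 0 := by
    rw [← map_nsmul, hpP, map_zero]
  have hodd : Odd p := hp.odd_of_ne_two hp2
  -- the class of `|b|` is not killed by `p`
  have hclsb : p • cls hyp (bUnit hyp) ≠ 0 := by
    obtain ⟨k, hk⟩ := hodd
    intro h0
    rw [hk, add_smul, one_smul, mul_comm, mul_smul, two_smul, cls_b_add_cls_b, nsmul_zero,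
      zero_add] at h0
    exact cls_b_ne_zero hyp hb h0
  -- `|b| < |x|`
  have hxb : A.valuation W.a₄ < A.valuation x := by
    by_contra hcon
    rw [not_lt] at hcon
    rw [hφ, compMap_of_le_b hyp β hb h hcon] at hφP
    exact hclsb hφP
  have hx0 : x ≠ 0 := by
    rintro rfl
    rw [map_zero] at hxb
    exact absurd hxb (not_lt.2 zero_le)
  -- `p • cls |x| = 0`
  have hcls : p • cls hyp (valUnit A x hx0) = 0 := by
    by_cases ht : A.valuation (y - β * x) < A.valuation x
    · rw [hφ, compMap_of_Cp hyp β h hx0 hxb hx1 ht] at hφP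
      exact hφP
    · rw [hφ, compMap_of_not_Cp hyp β h hx0 hxb hx1 ht, neg_nsmul, neg_eq_zero] at hφP
      exact hφP
  have hmem : (valUnit A x hx0) ^ p ∈ Subgroup.zpowers (bUnit hyp ^ 2) := by
    rw [← cls_eq_zero_iff]
    exact hcls
  obtain ⟨k, hk⟩ := Subgroup.mem_zpowers_iff.1 hmem
  have hk' : A.valuation W.a₄ ^ (2 * k) = A.valuation x ^ p := by
    have h1 := congrArg (fun u : (A.ValueGroup)ˣ => (u : A.ValueGroup)) hk
    simp only [Units.val_zpow_eq_zpow_val, Units.val_pow_eq_pow_val, val_bUnit, val_valUnit] at h1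
    rw [← h1, zpow_mul, zpow_ofNat]
  have hb0 : (0 : A.ValueGroup) < A.valuation W.a₄ := zero_lt_iff.2 (by simpa using hyp.b_ne)
  have hp0 : p ≠ 0 := hp.ne_zero
  have hlt1 : A.valuation x ^ p < 1 := pow_lt_one₀ zero_le hx1 hp0
  have hgt : A.valuation W.a₄ ^ p < A.valuation x ^ p := pow_lt_pow_left₀ hxb zero_le hp0
  have hkpos : 0 < 2 * k := by
    by_contra hcon
    rw [not_lt] at hcon
    have := one_le_zpow_of_nonpos₀ hb0 hb.le hcon
    rw [hk'] at this
    exact absurd hlt1 (not_lt.2 this)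
  have hklt : 2 * k < p := by
    by_contra hcon
    rw [not_lt] at hcon
    have := zpow_le_zpow_right_of_le_one₀ hb0 hb.le hcon
    rw [hk', zpow_natCast] at this
    exact absurd hgt (not_lt.2 this)
  refine ⟨x, y, h, (2 * k).toNat, hpP, hxb, hx1, ?_, ?_, ?_⟩
  · omega
  · omega
  · rw [← hk', ← zpow_natCast, Int.toNat_of_nonneg hkpos.le]

end Fermat.Agent.S59.TRes.H77
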