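/-
S59, leaf TRES, sub-leaf ADDEST (E3) (helper8): on the model `y² = x³ + a x² + b x`
(`|a| = 1`, `|b| < 1`), for `|b| < |x₁| < 1 < |x₂|`:
`|x(P₁ + P₂) - x₁|² · |x₂| = |x₁|²`.

Identity `(x₂-x₁)²(x₃-x₁) = -x₁³ + 3x₁²x₂ + 2a x₁x₂ + b(x₁+x₂) - 2y₁y₂`; the last term is strictly
dominant: `|y₁|² = |x₁|²`, `|y₂|² = |x₂|³`, `|2| = 1`.
-/
import Fermat.Agent.S59.TRes.Defs2
import Fermat.Agent.S05.M1

set_option autoImplicit false

open WeierstrassCurve WeierstrassCurve.Affine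

namespace Fermat.Agent.S59.TRes.H8

open Fermat.Agent.S05 (ModelHyp)

section

variable {L : Type} [Field L] {A : ValuationSubring L}

/-- In a linearly ordered commutative group with zero: `a² < b²` implies `a < b`. -/
theorem lt_of_sq_lt_sq {Γ : Type*} [LinearOrderedCommGroupWithZero Γ] {a b : Γ}
    (h : a ^ 2 < b ^ 2) : a < b := by
  by_contra hle
  rw [not_lt] at hle
  have h1 : b ^ 2 ≤ a ^ 2 := pow_le_pow_left' hle 2
  exact absurd h (not_lt.2 h1)

/-- The equation of the model. -/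
theorem model_eq {W : Affine L} (hyp : ModelHyp A W) {x y : L} (h : W.Nonsingular x y) :
    y ^ 2 = x ^ 3 + W.a₂ * x ^ 2 + W.a₄ * x := by
  have h1 := (W.equation_iff x y).1 h.1
  rw [hyp.a₁, hyp.a₃, hyp.a₆] at h1
  linear_combination h1

/-- `|y|² = |x|²` on the annulus `|b| < |x| < 1`. -/
theorem val_y_sq_small {W : Affine L} (hyp : ModelHyp A W) (hb : A.valuation W.a₄ < 1)
    {x y : L} (h : W.Nonsingular x y) (hbx : A.valuation W.a₄ < A.valuation x)
    (hx1 : A.valuation x < 1) : A.valuation y ^ 2 = A.valuation x ^ 2 := by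
  have hx0 : A.valuation x ≠ 0 := fun h0 => by
    rw [h0] at hbx
    exact absurd hbx (not_lt.2 zero_le)
  have hxpos : 0 < A.valuation x := zero_lt_iff.2 hx0
  have va : A.valuation W.a₂ = 1 := Fermat.Agent.S05.M1.val_a hyp hb
  have e := model_eq hyp h
  have e' : y ^ 2 = W.a₂ * x ^ 2 + (x ^ 3 + W.a₄ * x) := by rw [e]; ring
  have h1 : A.valuation (W.a₂ * x ^ 2) = A.valuation x ^ 2 := by
    rw [map_mul, va, one_mul, map_pow]
  have h2 : A.valuation (x ^ 3) < A.valuation x ^ 2 := by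
    rw [map_pow, pow_succ (A.valuation x) 2]
    calc A.valuation x ^ 2 * A.valuation x < A.valuation x ^ 2 * 1 :=
          mul_lt_mul_of_pos_left hx1 (pow_pos hxpos 2)
      _ = A.valuation x ^ 2 := mul_one _
  have h3 : A.valuation (W.a₄ * x) < A.valuation x ^ 2 := by
    rw [map_mul, pow_two]
    exact mul_lt_mul_of_pos_right hbx hxpos
  have h4 : A.valuation (x ^ 3 + W.a₄ * x) < A.valuation (W.a₂ * x ^ 2) := by
    rw [h1]
    exact lt_of_le_of_lt (A.valuation.map_add _ _) (max_lt h2 h3)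
  rw [← map_pow, e', Valuation.map_add_eq_of_lt_left _ h4, h1]

/-- `|y|² = |x|³` for `|x| > 1`. -/
theorem val_y_sq_big {W : Affine L} (hyp : ModelHyp A W)
    {x y : L} (h : W.Nonsingular x y) (hx1 : 1 < A.valuation x) :
    A.valuation y ^ 2 = A.valuation x ^ 3 := by
  have hxpos : 0 < A.valuation x := lt_trans zero_lt_one hx1
  have e := model_eq hyp h
  have h2 : A.valuation (W.a₂ * x ^ 2) < A.valuation x ^ 3 := by
    rw [map_mul, map_pow, pow_succ (A.valuation x) 2, mul_comm]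
    calc A.valuation x ^ 2 * A.valuation W.a₂ ≤ A.valuation x ^ 2 * 1 :=
          mul_le_mul_right hyp.a_le _
      _ < A.valuation x ^ 2 * A.valuation x := mul_lt_mul_of_pos_left hx1 (pow_pos hxpos 2)
  have h3 : A.valuation (W.a₄ * x) < A.valuation x ^ 3 := by
    rw [map_mul]
    calc A.valuation W.a₄ * A.valuation x ≤ 1 * A.valuation x := mul_le_mul_left hyp.b_le _
      _ = A.valuation x ^ 1 := by rw [one_mul, pow_one]
      _ < A.valuation x ^ 3 := pow_lt_pow_right₀ hx1 (by norm_num)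
  have e' : y ^ 2 = x ^ 3 + (W.a₂ * x ^ 2 + W.a₄ * x) := by rw [e]; ring
  have h4 : A.valuation (W.a₂ * x ^ 2 + W.a₄ * x) < A.valuation (x ^ 3) := by
    rw [map_pow]
    exact lt_of_le_of_lt (A.valuation.map_add _ _) (max_lt h2 h3)
  rw [← map_pow, e', Valuation.map_add_eq_of_lt_left _ h4, map_pow]

end

/-- **ADDEST** (E3). -/
theorem stmt_ADDEST : Stmt_ADDEST := by
  intro L _ _ A W hyp hb x₁ y₁ x₂ y₂ h₁ h₂ hbx hx1 hx2
  have hne : x₁ ≠ x₂ := by
    intro h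
    rw [h] at hx1
    exact lt_asymm hx1 hx2
  have hx1ne : A.valuation x₁ ≠ 0 := fun h0 => by
    rw [h0] at hbx
    exact absurd hbx (not_lt.2 zero_le)
  have hx1pos : 0 < A.valuation x₁ := zero_lt_iff.2 hx1ne
  have hx2pos : 0 < A.valuation x₂ := lt_trans zero_lt_one hx2
  have hx2ne : A.valuation x₂ ≠ 0 := ne_of_gt hx2pos
  have va : A.valuation W.a₂ = 1 := Fermat.Agent.S05.M1.val_a hyp hb
  refine ⟨_, _, _, Point.add_of_X_ne (h₁ := h₁) (h₂ := h₂) hne, ?_⟩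
  rw [slope_of_X_ne hne]
  have e₁ := model_eq hyp h₁
  have e₂ := model_eq hyp h₂
  have hD : x₁ - x₂ ≠ 0 := sub_ne_zero.2 hne
  -- the identity
  have hℓ : (x₂ - x₁) ^ 2 * ((y₁ - y₂) / (x₁ - x₂)) ^ 2 = (y₁ - y₂) ^ 2 := by
    field_simp
    ring
  have hid : (x₂ - x₁) ^ 2 * (W.addX x₁ x₂ ((y₁ - y₂) / (x₁ - x₂)) - x₁) =
      (-x₁ ^ 3 + 3 * x₁ ^ 2 * x₂ + 2 * W.a₂ * x₁ * x₂ + W.a₄ * (x₁ + x₂)) + (-(2 * y₁ * y₂)) := by
    rw [addX, hyp.a₁]
    linear_combination hℓ + e₁ + e₂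
  -- sizes
  have hy1 := val_y_sq_small hyp hb h₁ hbx hx1
  have hy2 := val_y_sq_big hyp h₂ hx2
  have hT2 : A.valuation (-(2 * y₁ * y₂)) ^ 2 = A.valuation x₁ ^ 2 * A.valuation x₂ ^ 3 := by
    rw [Valuation.map_neg, map_mul, map_mul, hyp.two, one_mul, mul_pow, hy1, hy2]
  have hvD : A.valuation (x₂ - x₁) = A.valuation x₂ :=
    Valuation.map_sub_eq_of_lt_left _ (lt_trans hx1 hx2)
  have hsum : A.valuation (x₁ + x₂) = A.valuation x₂ :=
    Valuation.map_add_eq_of_lt_right _ (lt_trans hx1 hx2)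
  have h3 : A.valuation (3 : L) ≤ 1 := by
    rw [A.valuation_le_one_iff]
    exact ofNat_mem A 3
  set B := A.valuation x₁ * A.valuation x₂ with hB
  have hx1le : A.valuation x₁ ≤ 1 := le_of_lt hx1
  have hx2le : 1 ≤ A.valuation x₂ := le_of_lt hx2
  -- the four terms of `S`
  have t1 : A.valuation (-x₁ ^ 3) ≤ B := by
    rw [Valuation.map_neg, map_pow, hB, pow_succ' (A.valuation x₁) 2]
    refine mul_le_mul_right ?_ _
    calc A.valuation x₁ ^ 2 ≤ 1 := pow_le_one₀ zero_le hx1le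
      _ ≤ A.valuation x₂ := hx2le
  have t2 : A.valuation (3 * x₁ ^ 2 * x₂) ≤ B := by
    rw [map_mul, map_mul, map_pow, hB]
    refine mul_le_mul_left ?_ _
    calc A.valuation 3 * A.valuation x₁ ^ 2 ≤ 1 * A.valuation x₁ ^ 2 := mul_le_mul_left h3 _
      _ = A.valuation x₁ * A.valuation x₁ := by rw [one_mul, pow_two]
      _ ≤ A.valuation x₁ * 1 := mul_le_mul_right hx1le _
      _ = A.valuation x₁ := mul_one _
  have t3 : A.valuation (2 * W.a₂ * x₁ * x₂) ≤ B := by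
    rw [map_mul, map_mul, map_mul, hyp.two, va, one_mul, one_mul]
  have t4 : A.valuation (W.a₄ * (x₁ + x₂)) ≤ B := by
    rw [map_mul, hsum, hB]
    exact mul_le_mul_left (le_of_lt hbx) _
  have hS : A.valuation (-x₁ ^ 3 + 3 * x₁ ^ 2 * x₂ + 2 * W.a₂ * x₁ * x₂ + W.a₄ * (x₁ + x₂)) ≤ B :=
    le_trans (A.valuation.map_add _ _) (max_le (le_trans (A.valuation.map_add _ _)
      (max_le (le_trans (A.valuation.map_add _ _) (max_le t1 t2)) t3)) t4)
  have hBT : B < A.valuation (-(2 * y₁ * y₂)) := by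
    apply lt_of_sq_lt_sq
    rw [hT2, hB, mul_pow, pow_succ (A.valuation x₂) 2]
    calc A.valuation x₁ ^ 2 * A.valuation x₂ ^ 2
        = A.valuation x₁ ^ 2 * A.valuation x₂ ^ 2 * 1 := (mul_one _).symm
      _ < A.valuation x₁ ^ 2 * A.valuation x₂ ^ 2 * A.valuation x₂ :=
          mul_lt_mul_of_pos_left hx2 (mul_pos (pow_pos hx1pos 2) (pow_pos hx2pos 2))
      _ = A.valuation x₁ ^ 2 * (A.valuation x₂ ^ 2 * A.valuation x₂) := mul_assoc _ _ _
  have hval : A.valuation ((x₂ - x₁) ^ 2 * (W.addX x₁ x₂ ((y₁ - y₂) / (x₁ - x₂)) - x₁)) =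
      A.valuation (-(2 * y₁ * y₂)) := by
    rw [hid]
    exact Valuation.map_add_eq_of_lt_right _ (lt_of_le_of_lt hS hBT)
  rw [map_mul, map_pow, hvD] at hval
  have hsq : (A.valuation x₂ ^ 2 *
      A.valuation (W.addX x₁ x₂ ((y₁ - y₂) / (x₁ - x₂)) - x₁)) ^ 2 =
      A.valuation x₁ ^ 2 * A.valuation x₂ ^ 3 := by
    rw [hval, hT2]
  have hx2c : A.valuation x₂ ^ 3 ≠ 0 := pow_ne_zero 3 hx2ne
  apply mul_right_cancel₀ hx2c
  rw [← hsq, mul_pow, ← pow_mul, mul_assoc, ← pow_succ', mul_comm]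

end Fermat.Agent.S59.TRes.H8
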