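import Fermat.Agent.S59.TRes.Defs4
import Fermat.Agent.S59.TRes.H49_Dict
import Fermat.Agent.S59.TRes.H49_Ell
import Fermat.Agent.S59.TRes.H49_BigRoot
import Fermat.Agent.S59.TRes.H49_LocB
import Fermat.Agent.S59.TRes.H77_Small
import Fermat.Agent.S59.TRes.H8_AddEst
import Fermat.Agent.S59.TRes.H8_Tors
import Fermat.Agent.S59.TRes.H26_X0
import Fermat.Agent.S52.H5_UnipDecomp
import Fermat.Agent.Lib.EllFinite.H46_Finrank

/-!
# S59, leaf TRES (helper49): assembly, part A (from the curve to the elliptic data)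

`W/ℤ` with multiplicative reduction at the odd prime `p`, `p ∤ v_p(Δ)`: on `E = EQ W` there are
independent points `P`, `T` of order `p` on which `Gal(K̄/ℚ_p)` acts by upper triangular
matrices, a `D`-fixed `x₀`, with `‖ι(x(P) - x₀)‖^(2p) = p^(-M)`, `p ∤ M`,
`‖ι(x(P+T) - x(P))‖² R = ‖ι(x(P) - x₀)‖²`, `p ≤ R^((p-1)/2)`.
-/

set_option autoImplicit false

open WeierstrassCurve WeierstrassCurve.Affine

namespace Fermat.Agent.S59.TRes.H49

open Fermat.Agent.S56.FL Fermat.Agent.S52.H5 Fermat.Agent.S05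
open Fermat.Agent.Lib.PointVariableChange

section

variable {p : ℕ} [Fact p.Prime] (W : WeierstrassCurve ℤ)

/-- The Galois elements coming from `Gal(K̄/ℚ_p)` preserve the valuation and fix the
coefficients. -/
lemma loc_props (τ : Gp p) :
    (∀ x, (padicPlace p).valuation ((localGaloisToGlobal p τ : Qb →+* Qb) x) =
      (padicPlace p).valuation x) ∧
    (localGaloisToGlobal p τ : Qb →+* Qb) (EQ W).a₁ = (EQ W).a₁ ∧
    (localGaloisToGlobal p τ : Qb →+* Qb) (EQ W).a₂ = (EQ W).a₂ ∧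
    (localGaloisToGlobal p τ : Qb →+* Qb) (EQ W).a₃ = (EQ W).a₃ ∧
    (localGaloisToGlobal p τ : Qb →+* Qb) (EQ W).a₄ = (EQ W).a₄ ∧
    (localGaloisToGlobal p τ : Qb →+* Qb) (EQ W).a₆ = (EQ W).a₆ := by
  refine ⟨(valOn_galAdd W (padicPlace p) _
    (localGaloisToGlobal_mem_decompositionSubgroup p τ)).val_eq, ?_, ?_, ?_, ?_, ?_⟩
  · rw [EQ_a₁]; exact map_intCast _ _
  · rw [EQ_a₂]; exact map_intCast _ _
  · rw [EQ_a₃]; exact map_intCast _ _
  · rw [EQ_a₄]; exact map_intCast _ _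
  · rw [EQ_a₆]; exact map_intCast _ _

/-- **Assembly, part A.** -/
theorem data_of (hp2 : p ≠ 2) (hΔ : W.Δ ≠ 0) (hbad : (p : ℤ) ∣ W.Δ) (hc₄ : ¬ (p : ℤ) ∣ W.c₄)
    (hnp : ¬ (W.map (Int.castRingHom ℚ)).IsPeuRamifieeAt p p)
    (hDISC : Stmt_DISC) (hE1 : Stmt_E1STAB) :
    ∃ (P T : (EQ W).Point) (x₀ : Qb) (M : ℕ) (R : ℝ),
      p • P = 0 ∧ p • T = 0 ∧
      (∀ a c : ℤ, a • P + c • T = 0 → (p : ℤ) ∣ a ∧ (p : ℤ) ∣ c) ∧
      (∀ τ : Gp p, ∃ a : ℤ, localGaloisToGlobal p τ • T = a • T) ∧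
      (∀ τ : Gp p, ∃ a c : ℤ, localGaloisToGlobal p τ • P = a • P + c • T) ∧
      (∀ τ : Gp p, localGaloisToGlobal p τ x₀ = x₀) ∧
      ¬ p ∣ M ∧ ‖padicEmbedding p (xc P - x₀)‖ ^ (p * 2) = ((p : ℝ)⁻¹) ^ M ∧
      1 < R ∧ (p : ℝ) ≤ R ^ ((p - 1) / 2) ∧
      ‖padicEmbedding p (xc (P + T) - xc P)‖ ^ 2 * R ≤
        ‖padicEmbedding p (xc P - x₀)‖ ^ 2 := by
  have hp : p.Prime := Fact.out
  have hA : (padicPlace p).LiesOverPrime p := padicPlace_liesOver49 p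
  obtain ⟨e, he, -, hyp, hb, hV, -⟩ :=
    exists_model_odd_Q W p hp hp2 hΔ hbad hc₄ (padicPlace p) hA
  have h2 : (padicPlace p).valuation (2 : Qb) = 1 := ModelHyp.two hyp
  have h20 : (2 : Qb) ≠ 0 := two_ne_zero
  have hΔE : (EQ W).Δ ≠ 0 := by
    rw [EQ_Δ]; exact_mod_cast hΔ
  have hΔeq : (vcOdd (EQ W) e • EQ W).toAffine.Δ = (EQ W).Δ := by
    rw [variableChange_Δ]
    simp [vcOdd]
  have hΔ' : (vcOdd (EQ W) e • EQ W).toAffine.Δ ≠ 0 := by
    rw [hΔeq]; exact hΔE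
  have hpv : (padicPlace p).valuation (p : Qb) < 1 :=
    (ValuationSubring.mem_nonunits_iff _).1 hA
  have hc₄v : (padicPlace p).valuation (EQ W).c₄ = 1 := by
    rw [EQ_c₄]; exact Fermat.Agent.S05.H15.valuation_intCast_eq_one_of_not_dvd hp hA hc₄
  have ha₄ : (vcOdd (EQ W) e • EQ W).toAffine.a₄ = trB4 (EQ W) e / 2 := vcOdd_a₄ (EQ W) e h20
  have htr : (padicPlace p).valuation (trB4 (EQ W) e) =
      (padicPlace p).valuation (vcOdd (EQ W) e • EQ W).toAffine.a₄ := by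
    rw [ha₄, map_div₀, h2, div_one]
  -- the points on the model
  obtain ⟨x₁, y₁, h₁, n, hP', hx₁b, hx₁1, hn0, hnp', hx₁p⟩ :=
    H77.stmt_SMALL Qb (padicPlace p) p hp hp2 hpv _ hyp hb hΔ'
  obtain ⟨x₂, y₂, h₂, hT', hx₂⟩ := stmt_BIGROOT Qb (padicPlace p) p hp hp2 hpv _ hyp hb hΔ'
  have hx₂gt : 1 < (padicPlace p).valuation x₂ := by
    by_contra hcon
    rw [not_lt] at hcon
    have h3 : (padicPlace p).valuation x₂ ^ ((p - 1) / 2) ≤ 1 := pow_le_one₀ zero_le hcon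
    have h4 : (padicPlace p).valuation (p : Qb) * (padicPlace p).valuation x₂ ^ ((p - 1) / 2) ≤
        (padicPlace p).valuation (p : Qb) * 1 := mul_le_mul' le_rfl h3
    rw [mul_one] at h4
    exact absurd (lt_of_le_of_lt (hx₂.trans h4) hpv) (lt_irrefl _)
  obtain ⟨x₃, y₃, h₃, hadd, hest⟩ := H8.stmt_ADDEST Qb (padicPlace p) _ hyp hb x₁ y₁ x₂ y₂ h₁ h₂
    hx₁b hx₁1 hx₂gt
  -- transport to `E`
  obtain ⟨φ, hφ⟩ : ∃ φ : (vcOdd (EQ W) e • EQ W).toAffine.Point ≃+ (EQ W).Point,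
      φ = equiv (EQ W) (vcOdd (EQ W) e) := ⟨_, rfl⟩
  have hxc : ∀ (x y : Qb) (h : (vcOdd (EQ W) e • EQ W).toAffine.Nonsingular x y),
      xc (φ (.some x y h)) = x + e := by
    intro x y h
    rw [hφ, xc_equiv]
    simp [vcX, vcOdd]
  have hconj : ∀ (σ : Qb ≃ₐ[ℚ] Qb) (Q : (vcOdd (EQ W) e • EQ W).toAffine.Point),
      φ (conjVC (EQ W) (vcOdd (EQ W) e) (galAdd W σ) Q) = σ • φ Q := by
    intro σ Q
    rw [hφ, equiv_conjVC, galAdd_apply]
  -- the subgroup `E₁`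
  obtain ⟨S, hS⟩ : ∃ S : AddSubgroup (EQ W).Point,
      ∀ Q, Q ∈ S ↔ InE1 (padicPlace p) (φ.symm Q) :=
    ⟨AddSubgroup.comap φ.symm.toAddMonoidHom (e1Sub (padicPlace p) _ hyp), fun Q => Iff.rfl⟩
  have hSstab : ∀ (τ : Gp p) (Q : (EQ W).Point), Q ∈ S → localGaloisToGlobal p τ • Q ∈ S := by
    intro τ Q hQ
    rw [hS] at hQ ⊢
    have h3 := hE1 Qb (padicPlace p) _ hyp hb _ _
      (hV (localGaloisToGlobal p τ) (localGaloisToGlobal_mem_decompositionSubgroup p τ))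
      (φ.symm Q) hQ
    have h4 : φ.symm (localGaloisToGlobal p τ • Q) =
        conjVC (EQ W) (vcOdd (EQ W) e) (galAdd W (localGaloisToGlobal p τ)) (φ.symm Q) := by
      apply φ.injective
      rw [hconj, AddEquiv.apply_symm_apply, AddEquiv.apply_symm_apply]
    rw [h4]
    exact h3
  have hPp : p • φ (.some x₁ y₁ h₁) = 0 := by rw [← map_nsmul, hP', map_zero]
  have hTp : p • φ (.some x₂ y₂ h₂) = 0 := by rw [← map_nsmul, hT', map_zero]
  have hT0 : φ (.some x₂ y₂ h₂) ≠ 0 := by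
    intro h
    have := φ.injective (h.trans (map_zero φ).symm)
    exact Point.some_ne_zero _ this
  have hTS : φ (.some x₂ y₂ h₂) ∈ S := by
    rw [hS, AddEquiv.symm_apply_apply]
    exact hx₂gt
  have hPS : φ (.some x₁ y₁ h₁) ∉ S := by
    rw [hS, AddEquiv.symm_apply_apply]
    intro h
    exact absurd (lt_trans hx₁1 h) (lt_irrefl _)
  have hcard : Nat.card (Submodule.torsionBy ℤ (EQ W).Point (p : ℤ)) = p ^ 2 :=
    Fermat.Agent.Lib.EllFinite.H46.natCard_torsionBy_rat (W.map (Int.castRingHom ℚ))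
      (by
        rw [WeierstrassCurve.map_Δ]
        exact (map_ne_zero_iff _ (Int.cast_injective (α := ℚ))).2 hΔ) hp.ne_zero
  obtain ⟨hind, hgen, hSgen⟩ := H8.stmt_TORS p (EQ W).Point hcard S _ _ hPp hTp hT0 hTS hPS
  -- `x₀`
  obtain ⟨x₀, hx₀fix, hx₀e⟩ := H26.stmt_X0 Qb (padicPlace p) (EQ W) h2 hc₄v e he
    (by rw [htr]; exact hb)
    (Set.range fun τ : Gp p => ((localGaloisToGlobal p τ : Qb ≃ₐ[ℚ] Qb) : Qb →+* Qb))
    (by
      rintro _ ⟨τ₁, rfl⟩ _ ⟨τ₂, rfl⟩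
      refine ⟨τ₁ * τ₂, ?_⟩
      ext x
      simp only [map_mul]
      rfl)
    (by
      rintro _ ⟨τ, rfl⟩
      exact loc_props W τ)
  have hx₀ : ∀ τ : Gp p, localGaloisToGlobal p τ x₀ = x₀ :=
    fun τ => hx₀fix _ ⟨τ, rfl⟩
  -- norms
  have hgval : (padicPlace p).valuation (xc (φ (.some x₁ y₁ h₁)) - x₀) =
      (padicPlace p).valuation x₁ := by
    rw [hxc]
    have e1 : x₁ + e - x₀ = x₁ + -(x₀ - e) := by ring
    rw [e1]
    refine Valuation.map_add_eq_of_lt_left _ ?_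
    rw [Valuation.map_neg]
    exact lt_of_le_of_lt (hx₀e.trans htr.le) hx₁b
  have hgnorm : ‖padicEmbedding p (xc (φ (.some x₁ y₁ h₁)) - x₀)‖ = ‖padicEmbedding p x₁‖ :=
    (val_eq_iff p _ _).1 hgval
  have hx₁norm : ‖padicEmbedding p x₁‖ ^ p =
      ‖padicEmbedding p (vcOdd (EQ W) e • EQ W).toAffine.a₄‖ ^ n := by
    have h3 : (padicPlace p).valuation (x₁ ^ p) =
        (padicPlace p).valuation ((vcOdd (EQ W) e • EQ W).toAffine.a₄ ^ n) := by
      rw [map_pow, map_pow]; exact hx₁p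
    have h4 := (val_eq_iff p _ _).1 h3
    rwa [map_pow, map_pow, norm_pow, norm_pow] at h4
  have hbnorm : ‖padicEmbedding p (vcOdd (EQ W) e • EQ W).toAffine.a₄‖ ^ 2 =
      ((p : ℝ)⁻¹) ^ (padicValInt p W.Δ) := by
    have h3 : (padicPlace p).valuation ((vcOdd (EQ W) e • EQ W).toAffine.a₄ ^ 2) =
        (padicPlace p).valuation ((W.Δ : ℤ) : Qb) := by
      rw [map_pow, ← hDISC Qb (padicPlace p) _ hyp hb, hΔeq, EQ_Δ]
    have h4 := (val_eq_iff p _ _).1 h3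
    rw [map_pow, norm_pow, norm_emb_intCast p W.Δ hΔ] at h4
    exact h4
  have hvnd : ¬ p ∣ padicValInt p W.Δ := by
    intro h
    apply hnp
    show (p : ℤ) ∣ padicValRat p (W.map (Int.castRingHom ℚ)).Δ
    rw [WeierstrassCurve.map_Δ]
    have e1 : (Int.castRingHom ℚ) W.Δ = ((W.Δ : ℤ) : ℚ) := rfl
    rw [e1, padicValRat.of_int]
    exact Int.natCast_dvd_natCast.2 h
  have hnnd : ¬ p ∣ n := fun h => absurd (Nat.le_of_dvd hn0 h) (not_le.2 hnp')
  refine ⟨φ (.some x₁ y₁ h₁), φ (.some x₂ y₂ h₂), x₀, padicValInt p W.Δ * n,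
    ‖padicEmbedding p x₂‖, hPp, hTp, hind, ?_, ?_, hx₀, ?_, ?_, ?_, ?_, ?_⟩
  · -- `T` spans a stable line
    intro τ
    refine hSgen _ ?_ (hSstab τ _ hTS)
    rw [← loc_smul_nsmul, hTp]
    exact map_zero (galAdd W (localGaloisToGlobal p τ))
  · intro τ
    refine hgen _ ?_
    rw [← loc_smul_nsmul, hPp]
    exact map_zero (galAdd W (localGaloisToGlobal p τ))
  · intro h
    rcases (Nat.Prime.dvd_mul hp).1 h with h | h
    · exact hvnd h
    · exact hnnd h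
  · rw [hgnorm, pow_mul, hx₁norm, ← pow_mul, mul_comm n 2, pow_mul, hbnorm, ← pow_mul]
  · have h3 := (val_lt_iff p 1 x₂).1 (by rw [map_one]; exact hx₂gt)
    rwa [map_one, norm_one] at h3
  · have h3 : (padicPlace p).valuation (1 : Qb) ≤
        (padicPlace p).valuation ((p : Qb) * x₂ ^ ((p - 1) / 2)) := by
      rw [map_one, map_mul, map_pow]; exact hx₂
    have h4 := (val_le_iff p _ _).1 h3
    rw [map_one, norm_one, map_mul, map_pow, norm_mul, norm_pow, norm_emb_natCast_self] at h4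
    have hppos : (0 : ℝ) < p := by exact_mod_cast hp.pos
    rwa [inv_mul_eq_div, le_div_iff₀ hppos, one_mul] at h4
  · have e1 : xc (φ (.some x₁ y₁ h₁) + φ (.some x₂ y₂ h₂)) - xc (φ (.some x₁ y₁ h₁)) =
        x₃ - x₁ := by
      rw [← map_add, hadd, hxc, hxc]
      ring
    rw [e1, hgnorm]
    have h3 : (padicPlace p).valuation ((x₃ - x₁) ^ 2 * x₂) =
        (padicPlace p).valuation (x₁ ^ 2) := by
      rw [map_mul, map_pow, map_pow]; exact hest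
    have h4 := (val_eq_iff p _ _).1 h3
    rw [map_mul, map_pow, map_pow, norm_mul, norm_pow, norm_pow] at h4
    exact h4.le

end

end Fermat.Agent.S59.TRes.H49
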