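/-
S59, leaf TRES, sub-leaf TORS (helper77): pure group theory.

`#X[p] = p²`, `S` a subgroup, `T ∈ S` nonzero of order `p`, `P ∉ S` of order `p`: then `P`, `T`
are independent and generate `X[p]`, and `X[p] ∩ S = ⟨T⟩`.
-/
import Fermat.Agent.S59.TRes.Defs3
import Fermat.Agent.S59.TRes.H77_Grp

set_option autoImplicit false

namespace Fermat.Agent.S59.TRes.H77

section

variable {p : ℕ} [hp : Fact p.Prime] {X : Type} [AddCommGroup X]

/-- an element killed by `p` is a multiple of each of its multiples by an integer prime to `p` -/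
theorem exists_zsmul_eq_of_not_dvd {Y : X} (hY : p • Y = 0) {a : ℤ} (ha : ¬ (p : ℤ) ∣ a) :
    ∃ a' : ℤ, a' • (a • Y) = Y := by
  have h0 : (a : ZMod p) ≠ 0 := by
    rwa [Ne, ZMod.intCast_zmod_eq_zero_iff_dvd]
  refine ⟨((a : ZMod p)⁻¹).val, ?_⟩
  rw [← mul_smul]
  have h1 : (((((a : ZMod p)⁻¹).val : ℤ) * a : ℤ) : ZMod p) = ((1 : ℤ) : ZMod p) := by
    push_cast
    rw [ZMod.natCast_val, ZMod.cast_id', id, inv_mul_cancel₀ h0]
  rw [zsmul_congr_of_cast_eq hY h1, one_smul]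

end

/-- **TORS.** -/
theorem stmt_TORS : Stmt_TORS := by
  classical
  intro p hp X _ hcard S P T hP hT hT0 hTS hPS
  have hpp : p.Prime := hp.out
  -- independence
  have hind : ∀ a c : ℤ, a • P + c • T = 0 → (p : ℤ) ∣ a ∧ (p : ℤ) ∣ c := by
    intro a c hac
    have ha : (p : ℤ) ∣ a := by
      by_contra hna
      obtain ⟨a', ha'⟩ := exists_zsmul_eq_of_not_dvd hP hna
      apply hPS
      rw [← ha']
      have h1 : a • P = -(c • T) := eq_neg_of_add_eq_zero_left hac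
      rw [h1]
      exact S.zsmul_mem (S.neg_mem (S.zsmul_mem hTS c)) a'
    refine ⟨ha, ?_⟩
    by_contra hnc
    obtain ⟨c', hc'⟩ := exists_zsmul_eq_of_not_dvd hT hnc
    apply hT0
    rw [← hc']
    obtain ⟨k, hk⟩ := ha
    have h1 : a • P = 0 := by
      rw [hk, mul_comm, mul_smul, natCast_zsmul, hP, smul_zero]
    rw [h1, zero_add] at hac
    rw [hac, smul_zero]
  -- generation
  have hfin : Finite (Submodule.torsionBy ℤ X (p : ℤ)) :=
    Nat.finite_of_card_ne_zero (by rw [hcard]; exact pow_ne_zero 2 hpp.ne_zero)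
  have hmem : ∀ a c : ZMod p, ((a.val : ℤ) • P + (c.val : ℤ) • T) ∈
      Submodule.torsionBy ℤ X (p : ℤ) := by
    intro a c
    have hP' : (p : ℤ) • P = 0 := by rw [natCast_zsmul]; exact hP
    have hT' : (p : ℤ) • T = 0 := by rw [natCast_zsmul]; exact hT
    rw [Submodule.mem_torsionBy_iff, smul_add, smul_comm (p : ℤ) ((a.val : ℤ)) P,
      smul_comm (p : ℤ) ((c.val : ℤ)) T, hP', hT', smul_zero, smul_zero, add_zero]
  let f : ZMod p × ZMod p → Submodule.torsionBy ℤ X (p : ℤ) :=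
    fun ac => ⟨((ac.1.val : ℤ) • P + (ac.2.val : ℤ) • T), hmem ac.1 ac.2⟩
  have hf : Function.Injective f := by
    rintro ⟨a, c⟩ ⟨a', c'⟩ h
    have h1 : ((a.val : ℤ) • P + (c.val : ℤ) • T) = ((a'.val : ℤ) • P + (c'.val : ℤ) • T) :=
      congrArg Subtype.val h
    obtain ⟨h2, h3⟩ := cast_eq_of_comb_eq hind h1
    push_cast at h2 h3
    have : NeZero p := ⟨hpp.ne_zero⟩
    rw [ZMod.natCast_zmod_val, ZMod.natCast_zmod_val] at h2 h3
    exact Prod.ext h2 h3
  have hbij : Function.Bijective f := by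
    refine hf.bijective_of_nat_card_le ?_
    rw [hcard, Nat.card_prod, Nat.card_zmod, sq]
  have hgen : ∀ Q : X, p • Q = 0 → ∃ a c : ℤ, Q = a • P + c • T := by
    intro Q hQ
    have hQmem : Q ∈ Submodule.torsionBy ℤ X (p : ℤ) := by
      rw [Submodule.mem_torsionBy_iff, natCast_zsmul]
      exact hQ
    obtain ⟨⟨a, c⟩, hac⟩ := hbij.2 ⟨Q, hQmem⟩
    exact ⟨a.val, c.val, (congrArg Subtype.val hac).symm⟩
  refine ⟨hind, hgen, ?_⟩
  intro Q hQ hQS
  obtain ⟨a, c, hac⟩ := hgen Q hQ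
  have ha : (p : ℤ) ∣ a := by
    by_contra hna
    obtain ⟨a', ha'⟩ := exists_zsmul_eq_of_not_dvd hP hna
    apply hPS
    rw [← ha']
    have h1 : a • P = Q - c • T := by rw [hac]; abel
    rw [h1]
    exact S.zsmul_mem (S.sub_mem hQS (S.zsmul_mem hTS c)) a'
  obtain ⟨k, hk⟩ := ha
  have h1 : a • P = 0 := by
    rw [hk, mul_comm, mul_smul, natCast_zsmul, hP, smul_zero]
  exact ⟨c, by rw [hac, h1, zero_add]⟩

end Fermat.Agent.S59.TRes.H77
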