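/-
S59, leaf TRES, wiring TRES-W (helper77): `Stmt_TRESloc → Asm.Stmt_TRES`.

If the residual representation were flat at `p`, Fontaine's bound (`S56.FL.H54.stmt_FL_A`) gives a
finite Galois extension `L/ℚ_p` of bounded ramification with `Gal(K̄/L)` acting trivially on
`ρ.residual`; by BRIDGE-RES (`LL.H77.bridgeRes`) `ρ.residual` is `E[p] ⊗ k`, so `Gal(K̄/L)` acts
trivially on `E[p](ℚ̄)`, against the local statement `Stmt_TRESloc`.
-/
import Fermat.Agent.S59.TRes.Defs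
import Fermat.Agent.S59.Asm.H77_BridgeRes
import Fermat.Agent.S59.Asm.H49_CardKer
import Fermat.Agent.S56.FL.H54_FLA

set_option autoImplicit false

open Polynomial IsLocalRing WeierstrassCurve WeierstrassCurve.Affine

namespace Fermat.Agent.S59.TRes.H77

open Fermat.Agent.S59 Fermat.Agent.S59.Asm Fermat.Agent.S56.FL Fermat.Agent.S52.H5

/-- a flat residual representation (finite residue field of characteristic `p`, `p` odd) is
trivial on `Gal(K̄/L)` for a finite Galois extension `L/ℚ_p` of bounded ramification -/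
theorem exists_bdd_of_flat (p : ℕ) [Fact p.Prime] (hp2 : p ≠ 2) {k : Type} [Field k] [Finite k]
    [CharP k p] (ρ : ResidualGaloisRep k)
    (hfl : (GaloisRepAdic.ofResidualGaloisRep ρ).IsFlatAt p) :
    ∃ (L : IntermediateField ℚ_[p] (PadicAlgCl p)) (_ : FiniteDimensional ℚ_[p] L),
      Normal ℚ_[p] L ∧ IsBddField p L ∧
        ∀ σ : Gp p, σ ∈ L.fixingSubgroup → ρ.ρ (localGaloisToGlobal p σ) = 1 := by
  set ρ₀ : GaloisRepAdic k := GaloisRepAdic.ofResidualGaloisRep ρ with hρ₀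
  have hfin : Finite (k ⧸ (⊥ : Ideal k)) :=
    Finite.of_surjective (Ideal.Quotient.mk (⊥ : Ideal k)) Ideal.Quotient.mk_surjective
  have h1 := ((Fermat.Agent.R.isFlatAt_iff ρ₀ p).1 hfl).2 ⊥ hfin
  have hkill : ∀ m : ρ₀.V ⧸ ((⊥ : Ideal k) • (⊤ : Submodule k ρ₀.V)), p • m = 0 := by
    intro m
    have h2 : (p : k) = 0 := CharP.cast_eq_zero k p
    rw [← Nat.cast_smul_eq_nsmul k p m, h2, zero_smul]
  obtain ⟨L, hL, hnorm, hbdd, hact⟩ := Fermat.Agent.S56.FL.H54.stmt_FL_A p hp2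
    (ρ₀.V ⧸ ((⊥ : Ideal k) • (⊤ : Submodule k ρ₀.V))) (fun σ m => ρ₀.levelAction ⊥ σ m)
    hkill h1
  refine ⟨L, hL, hnorm, hbdd, fun σ hσ => ?_⟩
  refine LinearMap.ext fun v => ?_
  have h3 := hact σ hσ (Submodule.Quotient.mk v)
  have h4 : ρ₀.levelAction ⊥ (localGaloisToGlobal p σ) (Submodule.Quotient.mk v) =
      Submodule.Quotient.mk (ρ₀.ρ (localGaloisToGlobal p σ) v) := rfl
  rw [h4] at h3
  have h5 := (Submodule.Quotient.eq _).1 h3
  rw [Submodule.bot_smul, Submodule.mem_bot] at h5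
  exact sub_eq_zero.1 h5

/-- **TRES-W.** -/
theorem stmt_TRESwire : Stmt_TRESwire := by
  intro hloc p _ hp2 W hΔ hss hirrW hpeu 𝒪 _ _ _ _ _ _ ρ hdet hirr hfrob hfl
  have hp : p.Prime := Fact.out
  -- `p ∣ Δ` and `p ∤ c₄`
  have hpΔ : (p : ℤ) ∣ W.Δ := by
    by_contra hnd
    apply hpeu
    show (p : ℤ) ∣ padicValRat p (W.map (Int.castRingHom ℚ)).Δ
    have h1 : (W.map (Int.castRingHom ℚ)).Δ = ((W.Δ : ℤ) : ℚ) := by
      rw [WeierstrassCurve.map_Δ]
      rfl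
    rw [h1, padicValRat.of_int, padicValInt.eq_zero_of_not_dvd hnd]
    simp
  have hc₄ : ¬ (p : ℤ) ∣ W.c₄ := hss p hp hpΔ
  -- the residual representation is `E[p] ⊗ k`
  obtain ⟨hcard, hker⟩ := Fermat.Agent.S59.Asm.H49.stmt_CARDKER p W hΔ
  have hchar : CharP (ResidueField 𝒪) p := Fermat.Agent.S59.Asm.H77.charP_residueField hp hdet.1
  let j : ZMod p →+* ResidueField 𝒪 := ZMod.castHom (dvd_refl p) (ResidueField 𝒪)
  have he := Fermat.Agent.S59.LL.H77.bridgeRes W hΔ p hcard hker j ρ ∅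
    (fun ℓ hℓ hℓp _ hgood A hA σ hσ => hfrob ℓ hℓ hℓp hgood A hA σ hσ) hirr
  -- Fontaine's bound
  obtain ⟨L, hL, hnorm, hbdd, htriv⟩ := exists_bdd_of_flat p hp2 ρ.residual hfl
  refine hloc p hp2 W hΔ hpΔ hc₄ hpeu L hnorm hbdd ?_
  intro σ hσ P hP
  have h1 : (Fermat.Agent.S59.LL.H77.torsRep W p hcard hker).ρ (localGaloisToGlobal p σ) = 1 :=
    Fermat.Agent.S59.LL.H77.eq_one_of_bcAlong_resid_eq_one j _ _
      (eq_one_of_isEquiv_resid he _ (htriv σ hσ))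
  have hPmem : P ∈ Submodule.torsionBy ℤ
      ((W.map (Int.castRingHom ℚ))⁄(AlgebraicClosure ℚ)).Point p := by
    rw [Submodule.mem_torsionBy_iff]
    rw [← hP]
    exact (natCast_zsmul P p)
  have h2 := congrArg (fun F : Module.End (ZMod p) (Submodule.torsionBy ℤ
      ((W.map (Int.castRingHom ℚ))⁄(AlgebraicClosure ℚ)).Point p) => (F ⟨P, hPmem⟩ :
        ((W.map (Int.castRingHom ℚ))⁄(AlgebraicClosure ℚ)).Point)) h1
  exact h2

end Fermat.Agent.S59.TRes.H77
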